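import Mathlib

/-!
Low degree cohomology of a group `Γ`, relative to a pair of subgroups `N ≤ H`:
cochains are functions on `Γ`, of which only the values on `H` matter, constant on
`N`-cosets.  This avoids all subtypes and makes inflation and restriction invisible.
-/

set_option autoImplicit false
set_option linter.unusedSectionVars false

namespace FLTAgent.Global

variable {Γ : Type*} [Group Γ]

/-- `N` is a normal finite index subgroup of `H`. -/
structure Lvl (H N : Subgroup Γ) : Prop where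
  le : N ≤ H
  conj : ∀ g ∈ H, ∀ s ∈ N, g⁻¹ * s * g ∈ N
  fin : Finite (↥H ⧸ N.subgroupOf H)

section cosets

variable (H P : Subgroup Γ)

/-- The coset representative in `H` of a class modulo `P`. -/
noncomputable def rep (q : ↥H ⧸ P.subgroupOf H) : Γ := (q.out : Γ)

lemma rep_mem (q : ↥H ⧸ P.subgroupOf H) : rep H P q ∈ H := q.out.2

variable {H P} in
/-- Left translation of cosets. -/
noncomputable def trans {g : Γ} (hg : g ∈ H) :
    (↥H ⧸ P.subgroupOf H) ≃ (↥H ⧸ P.subgroupOf H) :=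
  MulAction.toPerm (⟨g, hg⟩ : H)

variable {H P} in
/-- The cocycle `s` in `g t = t' s`. -/
noncomputable def slip {g : Γ} (hg : g ∈ H) (q : ↥H ⧸ P.subgroupOf H) : Γ :=
  (rep H P (trans hg q))⁻¹ * g * rep H P q

variable {H P}

lemma slip_mem {g : Γ} (hg : g ∈ H) (q : ↥H ⧸ P.subgroupOf H) : slip hg q ∈ P := by
  have h : ((trans hg q).out : ↥H ⧸ P.subgroupOf H) = ((⟨g, hg⟩ * q.out : H) : ↥H ⧸ P.subgroupOf H) := by
    rw [QuotientGroup.out_eq']
    conv_lhs => rw [← QuotientGroup.out_eq' q]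
    rfl
  rw [QuotientGroup.eq, Subgroup.mem_subgroupOf] at h
  simpa [slip, rep, mul_assoc] using h

lemma rep_mul_slip {g : Γ} (hg : g ∈ H) (q : ↥H ⧸ P.subgroupOf H) :
    rep H P (trans hg q) * slip hg q = g * rep H P q := by
  simp [slip, mul_assoc]

lemma trans_mul {g k : Γ} (hg : g ∈ H) (hk : k ∈ H) (q : ↥H ⧸ P.subgroupOf H) :
    trans (mul_mem hg hk) q = trans hg (trans hk q) := by
  show (⟨g * k, _⟩ : H) • q = (⟨g, hg⟩ : H) • ((⟨k, hk⟩ : H) • q)
  rw [← mul_smul]; rfl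

lemma slip_mul {g k : Γ} (hg : g ∈ H) (hk : k ∈ H) (q : ↥H ⧸ P.subgroupOf H) :
    slip (mul_mem hg hk) q = slip hg (trans hk q) * slip hk q := by
  simp [slip, trans_mul hg hk, mul_assoc]

lemma trans_of_mem {N : Subgroup Γ} (hN : Lvl H N) (hNP : N ≤ P) {g s : Γ} (hg : g ∈ H) (hs : s ∈ N)
    (q : ↥H ⧸ P.subgroupOf H) : trans (mul_mem hg (hN.le hs)) q = trans hg q := by
  show (⟨g * s, _⟩ : H) • q = (⟨g, hg⟩ : H) • q
  conv_lhs => rw [← QuotientGroup.out_eq' q]
  conv_rhs => rw [← QuotientGroup.out_eq' q]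
  rw [MulAction.Quotient.smul_coe, MulAction.Quotient.smul_coe, QuotientGroup.eq,
    Subgroup.mem_subgroupOf]
  have h := hNP (N.inv_mem (hN.conj _ q.out.2 _ hs))
  simpa [mul_assoc] using h

end cosets

section csum

variable {A : Type*} [AddCommMonoid A] (H P : Subgroup Γ)

/-- Sum over `H/P` of a function of a representative. -/
noncomputable def csum (F : Γ → A) : A := ∑ᶠ q : ↥H ⧸ P.subgroupOf H, F (rep H P q)

lemma csum_congr {F G : Γ → A} (h : ∀ g ∈ H, F g = G g) : csum H P F = csum H P G :=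
  finsum_congr fun q => h _ (rep_mem H P q)

lemma csum_add (hf : Finite (↥H ⧸ P.subgroupOf H)) (F G : Γ → A) :
    csum H P (fun g => F g + G g) = csum H P F + csum H P G :=
  finsum_add_distrib (Set.toFinite _) (Set.toFinite _)

lemma map_csum (hf : Finite (↥H ⧸ P.subgroupOf H)) {B : Type*} [AddCommMonoid B] (φ : A →+ B)
    (F : Γ → A) : φ (csum H P F) = csum H P (fun g => φ (F g)) :=
  φ.map_finsum (Set.toFinite _)

lemma csum_eq_sum [Fintype (↥H ⧸ P.subgroupOf H)] (F : Γ → A) :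
    csum H P F = ∑ q, F (rep H P q) :=
  finsum_eq_sum_of_fintype _

variable {H P}

lemma csum_mul_left {F : Γ → A} (hF : ∀ g ∈ H, ∀ s ∈ P, F (g * s) = F g) {k : Γ} (hk : k ∈ H) :
    csum H P (fun g => F (k * g)) = csum H P F := by
  unfold csum
  rw [← finsum_comp_equiv (trans hk) (f := fun q => F (rep H P q))]
  refine finsum_congr fun q => ?_
  dsimp only
  rw [← rep_mul_slip hk q]
  exact hF _ (rep_mem H P _) _ (slip_mem hk q)

end csum

variable {A : Type*} [AddCommGroup A] [DistribMulAction Γ A]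

/-- The elements fixed by a subgroup. -/
def fixSub (N : Subgroup Γ) : AddSubgroup A where
  carrier := {a | ∀ s ∈ N, s • a = a}
  zero_mem' := fun s _ => smul_zero s
  add_mem' := fun ha hb s hs => by rw [smul_add, ha s hs, hb s hs]
  neg_mem' := fun ha s hs => by rw [smul_neg, ha s hs]

lemma mem_fixSub {N : Subgroup Γ} {a : A} : a ∈ fixSub (A := A) N ↔ ∀ s ∈ N, s • a = a := Iff.rfl

/-- The norm from level `P` to level `H`. -/
noncomputable def normTo (H P : Subgroup Γ) (a : A) : A := csum H P (fun t => t • a)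

/-- Coboundary of a 0-cochain. -/
def dd0 (a : A) (g : Γ) : A := g • a - a

/-- Coboundary of a 1-cochain. -/
def dd1 (b : Γ → A) (g h : Γ) : A := g • b h - b (g * h) + b g

lemma dd1_add (b b' : Γ → A) (g h : Γ) : dd1 (b + b') g h = dd1 b g h + dd1 b' g h := by
  simp [dd1, smul_add]; abel

lemma dd1_sub (b b' : Γ → A) (g h : Γ) : dd1 (b - b') g h = dd1 b g h - dd1 b' g h := by
  simp [dd1, smul_sub]; abel

lemma dd1_dd0 (a : A) (g h : Γ) : dd1 (dd0 a) g h = 0 := by
  simp [dd1, dd0, smul_sub, mul_smul]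

section defs

variable (H N : Subgroup Γ)

/-- Constant on `N`-cosets inside `H`. -/
def IsLvl1 {X : Type*} (f : Γ → X) : Prop := ∀ g ∈ H, ∀ s ∈ N, f (g * s) = f g

/-- Constant on `N × N`-cosets inside `H × H`. -/
def IsLvl2 {X : Type*} (c : Γ → Γ → X) : Prop :=
  ∀ g ∈ H, ∀ h ∈ H, ∀ s ∈ N, ∀ s' ∈ N, c (g * s) (h * s') = c g h

/-- 1-cocycles of `H/N`. -/
def IsZ1 (f : Γ → A) : Prop :=
  IsLvl1 H N f ∧ ∀ g ∈ H, ∀ h ∈ H, f (g * h) = g • f h + f g

/-- 2-cocycles of `H/N`. -/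
def IsZ2 (c : Γ → Γ → A) : Prop :=
  IsLvl2 H N c ∧ ∀ g ∈ H, ∀ h ∈ H, ∀ j ∈ H,
    g • c h j - c (g * h) j + c g (h * j) - c g h = 0

/-- 1-coboundaries. -/
def IsB1 (f : Γ → A) : Prop := ∃ a : A, ∀ g ∈ H, f g = dd0 a g

/-- 2-coboundaries. -/
def IsB2 (c : Γ → Γ → A) : Prop :=
  ∃ b : Γ → A, IsLvl1 H N b ∧ ∀ g ∈ H, ∀ h ∈ H, c g h = dd1 b g h

variable {H N}

lemma IsLvl1.add {f f' : Γ → A} (h : IsLvl1 H N f) (h' : IsLvl1 H N f') : IsLvl1 H N (f + f') :=
  fun g hg s hs => by simp [h g hg s hs, h' g hg s hs]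

lemma IsLvl1.sub {f f' : Γ → A} (h : IsLvl1 H N f) (h' : IsLvl1 H N f') : IsLvl1 H N (f - f') :=
  fun g hg s hs => by simp [h g hg s hs, h' g hg s hs]

lemma IsLvl1.mono {X : Type*} {f : Γ → X} {H' N' : Subgroup Γ} (h : IsLvl1 H N f) (hH : H' ≤ H)
    (hN : N' ≤ N) : IsLvl1 H' N' f :=
  fun g hg s hs => h g (hH hg) s (hN hs)

lemma IsZ1.map_one {f : Γ → A} (h : IsZ1 H N f) : f 1 = 0 := by
  have := h.2 1 H.one_mem 1 H.one_mem
  simpa using this

lemma IsZ1.apply_of_mem {f : Γ → A} (h : IsZ1 H N f) {s : Γ} (hs : s ∈ N) : f s = 0 := by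
  simpa [h.map_one] using h.1 1 H.one_mem s hs

lemma IsZ1.smul_eq {f : Γ → A} (h : IsZ1 H N f) (hN : Lvl H N) {g s : Γ} (hg : g ∈ H) (hs : s ∈ N) :
    s • f g = f g := by
  have h1 := h.2 s (hN.le hs) g hg
  rw [h.apply_of_mem hs, add_zero, show s * g = g * (g⁻¹ * s * g) by group,
    h.1 g hg _ (hN.conj g hg s hs)] at h1
  exact h1.symm

lemma IsZ2.left_one {c : Γ → Γ → A} (h : IsZ2 H N c) {g : Γ} (hg : g ∈ H) : c 1 g = c 1 1 := by
  have := h.2 1 H.one_mem 1 H.one_mem g hg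
  simpa [sub_eq_zero] using this

lemma IsZ2.right_one {c : Γ → Γ → A} (h : IsZ2 H N c) {g : Γ} (hg : g ∈ H) :
    c g 1 = g • c 1 1 := by
  have := h.2 g hg 1 H.one_mem 1 H.one_mem
  simp [sub_eq_zero] at this
  exact this.symm

lemma IsZ2.smul_eq {c : Γ → Γ → A} (hc : IsZ2 H N c) (hN : Lvl H N) {g h s : Γ} (hg : g ∈ H)
    (hh : h ∈ H) (hs : s ∈ N) : s • c g h = c g h := by
  have h1 := hc.2 s (hN.le hs) g hg h hh
  have e : ∀ x ∈ H, c s x = c 1 1 := fun x hx => by
    rw [← hc.left_one hx]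
    simpa using hc.1 1 H.one_mem x hx s hs 1 N.one_mem
  rw [e _ (mul_mem hg hh), e _ hg, show s * g = g * (g⁻¹ * s * g) by group] at h1
  have h2 := hc.1 g hg h hh _ (hN.conj g hg s hs) 1 N.one_mem
  rw [mul_one] at h2
  rw [h2] at h1
  simpa [sub_eq_zero] using h1

lemma isZ2_dd1 {b : Γ → A} (hN : Lvl H N) (hb : IsLvl1 H N b)
    (hf : ∀ g ∈ H, ∀ s ∈ N, s • b g = b g) : IsZ2 H N (dd1 b) := by
  refine ⟨fun g hg h hh s hs s' hs' => ?_, fun g _ h _ j _ => ?_⟩
  · have e : g * s * (h * s') = g * h * ((h⁻¹ * s * h) * s') := by group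
    simp only [dd1, hb h hh s' hs', hb g hg s hs, e,
      hb _ (mul_mem hg hh) _ (mul_mem (hN.conj h hh s hs) hs'), mul_smul, hf h hh s hs]
  · simp [dd1, smul_add, smul_sub, mul_smul, mul_assoc]; abel

lemma IsZ2.sub {c c' : Γ → Γ → A} (h : IsZ2 H N c) (h' : IsZ2 H N c') : IsZ2 H N (c - c') := by
  refine ⟨fun g hg k hk s hs s' hs' => by simp [h.1 g hg k hk s hs s' hs', h'.1 g hg k hk s hs s' hs'],
    fun g hg k hk j hj => ?_⟩
  have e1 := h.2 g hg k hk j hj
  have e2 := h'.2 g hg k hk j hj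
  simp only [Pi.sub_apply, smul_sub]
  calc _ = (g • c k j - c (g * k) j + c g (k * j) - c g k)
        - (g • c' k j - c' (g * k) j + c' g (k * j) - c' g k) := by abel
    _ = 0 := by rw [e1, e2, sub_zero]

end defs

section transfer

variable {H P N : Subgroup Γ}

/-- The conjugate projector `t e t⁻¹`. -/
def projAt (e : A →+ A) (t : Γ) (a : A) : A := t • e (t⁻¹ • a)

lemma smul_projAt {e : A →+ A} (he : ∀ r ∈ P, ∀ a, e (r • a) = r • e a) {g : Γ} (hg : g ∈ H)
    (q : ↥H ⧸ P.subgroupOf H) (a : A) :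
    g • projAt e (rep H P q) a = projAt e (rep H P (trans hg q)) (g • a) := by
  simp only [projAt]
  have e1 : (rep H P (trans hg q))⁻¹ • g • a = slip hg q • (rep H P q)⁻¹ • a := by
    simp [slip, ← mul_smul, mul_assoc]
  rw [e1, he _ (slip_mem hg q), ← mul_smul, ← mul_smul, rep_mul_slip]

lemma projAt_eq_csum_sum [Fintype (↥H ⧸ P.subgroupOf H)] (e : A →+ A) (a : A) :
    csum H P (fun t => projAt e t a) = ∑ q, projAt e (rep H P q) a :=
  csum_eq_sum H P _

/-- Degree one Shapiro / transfer: if a component of a cocycle splits on `P`, the sum of the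
conjugate components splits on `H`. -/
theorem isB1_projSum (hP : P ≤ H) (hfin : Finite (↥H ⧸ P.subgroupOf H)) {e : A →+ A}
    (he : ∀ r ∈ P, ∀ a, e (r • a) = r • e a) {f : Γ → A} (hf : IsZ1 H N f) {a : A}
    (ha : ∀ r ∈ P, e (f r) = dd0 a r) :
    IsB1 H (fun g => csum H P (fun t => projAt e t (f g))) := by
  have := Fintype.ofFinite (↥H ⧸ P.subgroupOf H)
  refine ⟨∑ q, (rep H P q • a - projAt e (rep H P q) (f (rep H P q))), fun g hg => ?_⟩
  simp only [csum_eq_sum, dd0, Finset.smul_sum]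
  nth_rw 3 [← Equiv.sum_comp (trans hg)]
  rw [← Finset.sum_sub_distrib]
  rw [← Equiv.sum_comp (trans hg)]
  refine Finset.sum_congr rfl fun q _ => ?_
  set t := rep H P q with ht
  set t' := rep H P (trans hg q) with ht'
  set r := slip hg q with hr
  have hr' : r ∈ P := slip_mem hg q
  have e1 : g • f t + f g = t' • f r + f t' := by
    rw [← hf.2 g hg t (rep_mem H P q), ← hf.2 t' (rep_mem H P _) r (hP hr'), rep_mul_slip]
  have e2 : f g = t' • f r + f t' - g • f t := by rw [← e1]; abel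
  rw [smul_sub, smul_projAt he hg q, ← ht']
  conv_lhs => rw [e2]
  simp only [projAt, smul_sub, smul_add, inv_smul_smul, map_sub, map_add]
  rw [ha r hr', dd0, smul_sub, ← mul_smul t' r, rep_mul_slip, mul_smul]
  abel

/-- Degree two Shapiro / transfer, with control of the values of the primitive. -/
theorem exists_projSum (hN : Lvl H N) (hP : P ≤ H) (hNP : N ≤ P)
    (hfin : Finite (↥H ⧸ P.subgroupOf H)) {e : A →+ A}
    (he : ∀ r ∈ P, ∀ a, e (r • a) = r • e a) {c : Γ → Γ → A} (hc : IsZ2 H N c) {b : Γ → A}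
    (hb : IsLvl1 P N b) (hcb : ∀ r ∈ P, ∀ s ∈ P, e (c r s) = dd1 b r s) :
    ∃ β : Γ → A, IsLvl1 H N β ∧
      (∀ g ∈ H, ∀ h ∈ H, csum H P (fun t => projAt e t (c g h)) = dd1 β g h) ∧
      ∀ T : AddSubgroup A, (∀ (g : Γ), ∀ a ∈ T, g • a ∈ T) → (∀ r ∈ P, b r ∈ T) →
        (∀ t ∈ H, ∀ g ∈ H, ∀ h ∈ H, projAt e t (c g h) ∈ T) → ∀ g, β g ∈ T := by
  classical
  have := Fintype.ofFinite (↥H ⧸ P.subgroupOf H)
  let β : Γ → A := fun g => if hg : g ∈ H then
      ∑ q, (rep H P (trans hg q) • b (slip hg q)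
        + projAt e (rep H P (trans hg q))
            (c g (rep H P q) - c (rep H P (trans hg q)) (slip hg q)))
    else 0
  refine ⟨β, fun g hg s hs => ?_, fun g hg h hh => ?_, fun T hT hbT hcT g => ?_⟩
  · have hgs := mul_mem hg (hN.le hs)
    simp only [β, dif_pos hg, dif_pos hgs]
    refine Finset.sum_congr rfl fun q _ => ?_
    set t := rep H P q with ht
    have hn : t⁻¹ * s * t ∈ N := hN.conj t (rep_mem H P q) s hs
    have e1 : slip hgs q = slip hg q * (t⁻¹ * s * t) := by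
      simp [slip, trans_of_mem hN hNP hg hs q, ← ht, mul_assoc]
    rw [trans_of_mem hN hNP hg hs q, e1, hb _ (slip_mem hg q) _ hn]
    have e2 : c (g * s) t = c g t := by
      simpa using hc.1 g hg t (rep_mem H P q) s hs 1 N.one_mem
    have e3 : c (rep H P (trans hg q)) (slip hg q * (t⁻¹ * s * t))
        = c (rep H P (trans hg q)) (slip hg q) := by
      simpa using hc.1 _ (rep_mem H P _) _ (hP (slip_mem hg q)) 1 N.one_mem _ hn
    rw [e2, e3]
  · have hgh := mul_mem hg hh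
    simp only [dd1, β, dif_pos hg, dif_pos hh, dif_pos hgh, csum_eq_sum, Finset.smul_sum]
    conv_rhs => arg 2; rw [← Equiv.sum_comp (trans hh)]
    conv_lhs => rw [← Equiv.sum_comp ((trans hh).trans (trans hg))]
    rw [← Finset.sum_sub_distrib, ← Finset.sum_add_distrib]
    refine Finset.sum_congr rfl fun q _ => ?_
    rw [trans_mul hg hh, slip_mul hg hh]
    set q' := trans hh q with hq'
    set t := rep H P q with ht
    set t' := rep H P q' with ht'
    set s := slip hh q with hs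
    set t'' := rep H P (trans hg q') with ht''
    set r := slip hg q' with hr
    have htm : t ∈ H := rep_mem H P q
    have ht'm : t' ∈ H := rep_mem H P _
    have ht''m : t'' ∈ H := rep_mem H P _
    have hsm : s ∈ P := slip_mem hh q
    have hrm : r ∈ P := slip_mem hg q'
    have eh : t' * s = h * t := rep_mul_slip hh q
    have eg : t'' * r = g * t' := rep_mul_slip hg q'
    -- the three cocycle identities
    have i1 := hc.2 g hg h hh t htm
    have i2 := hc.2 g hg t' ht'm s (hP hsm)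
    have i3 := hc.2 t'' ht''m r (hP hrm) s (hP hsm)
    rw [eh] at i2
    rw [eg] at i3
    have key : c g h = t'' • c r s
        + g • (c h t - c t' s) - (c (g * h) t - c t'' (r * s)) + (c g t' - c t'' r) := by
      have : c g h - (t'' • c r s + g • (c h t - c t' s) - (c (g * h) t - c t'' (r * s))
          + (c g t' - c t'' r))
        = -(g • c h t - c (g * h) t + c g (h * t) - c g h)
          + (g • c t' s - c (g * t') s + c g (h * t) - c g t')
          - (t'' • c r s - c (g * t') s + c t'' (r * s) - c t'' r) := by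
        rw [smul_sub]; abel
      rw [i1, i2, i3] at this
      simpa [sub_eq_zero] using this
    show projAt e t'' (c g h) = _
    rw [smul_add, smul_projAt he hg q', ← mul_smul g t', ← eg, mul_smul]
    conv_lhs => rw [key]
    simp only [projAt, smul_add, smul_sub, map_add, map_sub, inv_smul_smul]
    rw [hcb r hrm s hsm, dd1, smul_add, smul_sub]
    abel
  · by_cases hg : g ∈ H
    · simp only [β, dif_pos hg]
      refine sum_mem fun q _ => T.add_mem (hT _ _ (hbT _ (slip_mem hg q))) ?_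
      have h1 := hcT _ (rep_mem H P (trans hg q)) g hg _ (rep_mem H P q)
      have h2 := hcT _ (rep_mem H P (trans hg q)) _ (rep_mem H P (trans hg q)) _ (hP (slip_mem hg q))
      have := T.sub_mem h1 h2
      simpa only [projAt, ← smul_sub, ← map_sub] using this
    · simp only [β, dif_neg hg]
      exact T.zero_mem

/-- Degree two Shapiro / transfer. -/
theorem isB2_projSum (hN : Lvl H N) (hP : P ≤ H) (hNP : N ≤ P)
    (hfin : Finite (↥H ⧸ P.subgroupOf H)) {e : A →+ A}
    (he : ∀ r ∈ P, ∀ a, e (r • a) = r • e a) {c : Γ → Γ → A} (hc : IsZ2 H N c) {b : Γ → A}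
    (hb : IsLvl1 P N b) (hcb : ∀ r ∈ P, ∀ s ∈ P, e (c r s) = dd1 b r s) :
    IsB2 H N (fun g h => csum H P (fun t => projAt e t (c g h))) :=
  let ⟨β, hβ, hβc, _⟩ := exists_projSum hN hP hNP hfin he hc hb hcb
  ⟨β, hβ, hβc⟩

lemma csum_projAt_id (hfin : Finite (↥H ⧸ P.subgroupOf H)) (a : A) :
    csum H P (fun t => projAt (AddMonoidHom.id A) t a) = (P.relIndex H) • a := by
  have := Fintype.ofFinite (↥H ⧸ P.subgroupOf H)
  simp [csum_eq_sum, projAt, Subgroup.relIndex, Subgroup.index_eq_card, Nat.card_eq_fintype_card]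

/-- A cocycle that splits on a subgroup of index `n` is killed by `n`. -/
theorem isB2_nsmul (hN : Lvl H N) (hP : P ≤ H) (hNP : N ≤ P)
    (hfin : Finite (↥H ⧸ P.subgroupOf H)) {c : Γ → Γ → A} (hc : IsZ2 H N c)
    (hcb : IsB2 P N c) : IsB2 H N (fun g h => P.relIndex H • c g h) := by
  obtain ⟨b, hb, hcb⟩ := hcb
  obtain ⟨β, hβ, h⟩ := isB2_projSum hN hP hNP hfin (e := AddMonoidHom.id A) (fun _ _ _ => rfl) hc hb
    (by simpa using hcb)
  refine ⟨β, hβ, fun g hg k hk => ?_⟩
  rw [← h g hg k hk]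
  exact (csum_projAt_id hfin _).symm

/-- Same in degree one. -/
theorem isB1_nsmul (hP : P ≤ H) (hfin : Finite (↥H ⧸ P.subgroupOf H)) {f : Γ → A}
    (hf : IsZ1 H N f) (hfb : IsB1 P f) : IsB1 H (fun g => P.relIndex H • f g) := by
  obtain ⟨a, ha⟩ := hfb
  obtain ⟨x, h⟩ := isB1_projSum hP hfin (e := AddMonoidHom.id A) (fun _ _ _ => rfl) hf
    (by simpa using ha)
  refine ⟨x, fun g hg => ?_⟩
  rw [← h g hg]
  exact (csum_projAt_id hfin _).symm

end transfer

end FLTAgent.Global
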