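import Mathlib
import Fermat.Prelude.Def_GaloisRep_CompletionBridge
import Fermat.Agent.Global.Cochain

/-!
Finite ideles of all subfields of `Q̄` at once: families, indexed by a prime `q`, of functions
`G_ℚ → (PadicAlgCl q)ˣ` equivariant for the local Galois group, constant on the cosets of an
open subgroup and almost everywhere units.  `G_ℚ` acts by right translation.
-/

set_option autoImplicit false
set_option linter.unusedSectionVars false

noncomputable section

namespace FLTAgent.Global

/-- The field of algebraic numbers. -/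
abbrev QQbar := AlgebraicClosure ℚ

/-- The absolute Galois group of `ℚ`. -/
abbrev GQ := QQbar ≃ₐ[ℚ] QQbar

scoped instance isAlgebraicQQbar : Algebra.IsAlgebraic ℚ QQbar := AlgebraicClosure.isAlgebraic ℚ

scoped instance isAlgClosureQQbar : IsAlgClosure ℚ QQbar := ⟨inferInstance, inferInstance⟩

scoped instance normalQQbar : Normal ℚ QQbar := IsAlgClosure.normal ℚ QQbar

scoped instance isGaloisQQbar : IsGalois ℚ QQbar := isGalois_iff.2 ⟨inferInstance, inferInstance⟩

scoped instance factPrimeOfPrimes (q : Nat.Primes) : Fact (q : ℕ).Prime := ⟨q.2⟩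

/-- `Q̄_q` -/
abbrev Kq (q : Nat.Primes) := PadicAlgCl (q : ℕ)

/-- `G_{ℚ_q}` -/
abbrev Gq (q : Nat.Primes) := Kq q ≃ₐ[ℚ_[(q : ℕ)]] Kq q

/-- The fixed embedding `Q̄ → Q̄_q`. -/
abbrev emb (q : Nat.Primes) : QQbar →ₐ[ℚ] Kq q := padicEmbedding (q : ℕ)

/-- Restriction `G_{ℚ_q} → G_ℚ`. -/
abbrev loc (q : Nat.Primes) : Gq q →* GQ := localGaloisToGlobal (q : ℕ)

lemma emb_loc (q : Nat.Primes) (τ : Gq q) (x : QQbar) : emb q (loc q τ x) = τ (emb q x) :=
  padicEmbedding_localGaloisToGlobal _ τ x

lemma norm_gq (q : Nat.Primes) (τ : Gq q) (y : Kq q) : ‖τ y‖ = ‖y‖ :=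
  congrArg NNReal.toReal (nnnorm_padicAlgCl_algEquiv _ τ y)

/-- The decomposition group of the fixed place over `q`. -/
def dec (q : Nat.Primes) : Subgroup GQ := (loc q).range

/-- A finite Galois level. -/
structure Level where
  /-- the field -/
  fld : IntermediateField ℚ QQbar
  fin : FiniteDimensional ℚ fld
  gal : IsGalois ℚ fld

/-- The trivial level. -/
def Level.bot : Level where
  fld := ⊥
  fin := inferInstance
  gal := IsGalois.of_algEquiv (IntermediateField.botEquiv ℚ QQbar).symm

/-- The open normal subgroup fixing a level. -/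
def Level.grp (L : Level) : Subgroup GQ := L.fld.fixingSubgroup

lemma Level.grp_normal (L : Level) : L.grp.Normal := by
  have := L.gal
  exact InfiniteGalois.normal_iff_isGalois L.fld |>.2 this

lemma exists_level (F : IntermediateField ℚ QQbar) [FiniteDimensional ℚ F] :
    ∃ L : Level, F ≤ L.fld := by
  refine ⟨⟨IntermediateField.normalClosure ℚ F QQbar, inferInstance, ?_⟩,
    IntermediateField.le_normalClosure F⟩
  exact @isGalois_iff .. |>.2 ⟨inferInstance, normalClosure.normal ℚ F QQbar⟩

lemma exists_level_mem (a : QQbar) : ∃ L : Level, a ∈ L.fld := by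
  have : FiniteDimensional ℚ (IntermediateField.adjoin ℚ {a}) :=
    IntermediateField.adjoin.finiteDimensional (Algebra.IsIntegral.isIntegral a)
  obtain ⟨L, hL⟩ := exists_level (IntermediateField.adjoin ℚ {a})
  exact ⟨L, hL (IntermediateField.mem_adjoin_simple_self ℚ a)⟩

/-- The join of two levels. -/
def Level.sup (L L' : Level) : Level where
  fld := L.fld ⊔ L'.fld
  fin := by have := L.fin; have := L'.fin; infer_instance
  gal := by
    have := L.gal; have := L'.gal; have := L.fin; have := L'.fin
    exact @isGalois_iff .. |>.2 ⟨inferInstance, @IntermediateField.normal_sup ℚ QQbar _ _ _ L.fld L'.fld L.gal.to_normal L'.gal.to_normal⟩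

lemma Level.sup_grp_le (L L' : Level) : (L.sup L').grp ≤ L.grp ⊓ L'.grp :=
  le_inf (IntermediateField.fixingSubgroup_antitone le_sup_left)
    (IntermediateField.fixingSubgroup_antitone le_sup_right)

/-- `S`-unramified levels at a prime. -/
def Level.UnrAt (L : Level) (q : Nat.Primes) : Prop :=
  ∀ A : ValuationSubring QQbar, (q : QQbar) ∈ A.nonunits →
    (A.inertiaSubgroup ℚ).map (A.decompositionSubgroup ℚ).subtype ≤ L.grp

section semi

variable (q : Nat.Primes)

/-- Equivariant functions of finite level: the `q`-part of the ideles of `Q̄`. -/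
def semiAdd : AddSubgroup (GQ → Additive (Kq q)ˣ) where
  carrier := {x |
    (∀ (τ : Gq q) (g : GQ), ((x (loc q τ * g)).toMul : Kq q) = τ ((x g).toMul : Kq q)) ∧
    ∃ L : Level, ∀ g : GQ, ∀ s ∈ L.grp, x (g * s) = x g}
  zero_mem' := ⟨fun τ g => by simp, ⟨Level.bot, fun _ _ _ => rfl⟩⟩
  add_mem' := by
    rintro x y ⟨hx, L, hL⟩ ⟨hy, L', hL'⟩
    refine ⟨fun τ g => by simp [hx τ g, hy τ g], L.sup L', fun g s hs => ?_⟩
    have h := L.sup_grp_le L' hs
    simp [hL g s h.1, hL' g s h.2]
  neg_mem' := by
    rintro x ⟨hx, L, hL⟩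
    exact ⟨fun τ g => by simp [hx τ g], L, fun g s hs => by simp [hL g s hs]⟩

/-- The `q`-part of the ideles. -/
abbrev Semi := ↥(semiAdd q)

instance : SMul GQ (Semi q) where
  smul h x := ⟨fun g => x.1 (g * h), fun τ g => by simpa [mul_assoc] using x.2.1 τ (g * h), by
    obtain ⟨L, hL⟩ := x.2.2
    refine ⟨L, fun g s hs => ?_⟩
    have := L.grp_normal
    simp only
    rw [show g * s * h = g * h * (h⁻¹ * s * h) by group]
    exact hL _ _ (by simpa using this.conj_mem s hs h⁻¹)⟩

lemma semi_smul_apply (h : GQ) (x : Semi q) (g : GQ) : (h • x).1 g = x.1 (g * h) := rfl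

instance : DistribMulAction GQ (Semi q) where
  one_smul x := by ext g; simp [semi_smul_apply]
  mul_smul h k x := by ext g; simp [semi_smul_apply, mul_assoc]
  smul_zero _ := rfl
  smul_add _ _ _ := rfl

variable {q}

/-- The value at the place `g`. -/
def sval (x : Semi q) (g : GQ) : Kq q := (x.1 g).toMul

lemma sval_ne_zero (x : Semi q) (g : GQ) : sval x g ≠ 0 := Units.ne_zero _

@[simp] lemma sval_add (x y : Semi q) (g : GQ) : sval (x + y) g = sval x g * sval y g := rfl

@[simp] lemma sval_zero (g : GQ) : sval (0 : Semi q) g = 1 := rfl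

@[simp] lemma sval_neg (x : Semi q) (g : GQ) : sval (-x) g = (sval x g)⁻¹ :=
  Units.val_inv_eq_inv_val _

@[simp] lemma sval_smul (h : GQ) (x : Semi q) (g : GQ) : sval (h • x) g = sval x (g * h) := rfl

lemma sval_loc (x : Semi q) (τ : Gq q) (g : GQ) : sval x (loc q τ * g) = τ (sval x g) := x.2.1 τ g

lemma semi_ext {x y : Semi q} (h : ∀ g, sval x g = sval y g) : x = y :=
  Subtype.ext <| funext fun g => Additive.toMul.injective (Units.ext (h g))

variable (q)

/-- The `q`-adic units. -/
def semiUnit : AddSubgroup (Semi q) where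
  carrier := {x | ∀ g, ‖sval x g‖ = 1}
  zero_mem' := fun g => by simp
  add_mem' := fun hx hy g => by simp [hx g, hy g]
  neg_mem' := fun hx g => by simp [hx g]

lemma smul_mem_semiUnit {x : Semi q} (hx : x ∈ semiUnit q) (h : GQ) : h • x ∈ semiUnit q :=
  fun g => hx (g * h)

end semi

section idele

/-- The finite ideles of `Q̄`. -/
def ideleAdd : AddSubgroup (∀ q : Nat.Primes, Semi q) where
  carrier := {x | (∃ L : Level, ∀ q, ∀ s ∈ L.grp, s • x q = x q) ∧ {q | x q ∉ semiUnit q}.Finite}
  zero_mem' := ⟨⟨Level.bot, fun _ _ _ => smul_zero _⟩, by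
    simp [(semiUnit _).zero_mem]⟩
  add_mem' := by
    rintro x y ⟨⟨L, hL⟩, hx⟩ ⟨⟨L', hL'⟩, hy⟩
    refine ⟨⟨L.sup L', fun q s hs => ?_⟩, (hx.union hy).subset fun q hq => ?_⟩
    · have h := L.sup_grp_le L' hs
      simp [smul_add, hL q s h.1, hL' q s h.2]
    · by_contra h
      simp only [Set.mem_union, Set.mem_ofPred_eq, not_or, not_not] at h
      exact hq ((semiUnit q).add_mem h.1 h.2)
  neg_mem' := by
    rintro x ⟨⟨L, hL⟩, hx⟩
    exact ⟨⟨L, fun q s hs => by simp [hL q s hs]⟩, by simpa using hx⟩

/-- The finite ideles of `Q̄`. -/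
abbrev Idele := ↥ideleAdd

instance : SMul GQ Idele where
  smul h x := ⟨fun q => h • x.1 q, by
    obtain ⟨⟨L, hL⟩, hx⟩ := x.2
    refine ⟨⟨L, fun q s hs => ?_⟩, hx.subset fun q hq hu => hq (smul_mem_semiUnit q hu h)⟩
    have := L.grp_normal
    rw [← mul_smul, show s * h = h * (h⁻¹ * s * h) by group, mul_smul,
      hL q _ (by simpa using this.conj_mem s hs h⁻¹)]⟩

instance : DistribMulAction GQ Idele where
  one_smul x := by ext1; funext q; exact one_smul GQ _
  mul_smul h k x := by ext1; funext q; exact mul_smul h k _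
  smul_zero h := by ext1; funext q; exact smul_zero h
  smul_add h x y := by ext1; funext q; exact smul_add h _ _

/-- The `q`-component. -/
def comp (q : Nat.Primes) : Idele →+ Semi q where
  toFun x := x.1 q
  map_zero' := rfl
  map_add' _ _ := rfl

@[simp] lemma comp_smul (q : Nat.Primes) (h : GQ) (x : Idele) : comp q (h • x) = h • comp q x := rfl

lemma idele_ext {x y : Idele} (h : ∀ q, comp q x = comp q y) : x = y := Subtype.ext (funext h)

/-- The ideles supported at `q`. -/
def single (q : Nat.Primes) : Semi q →+ Idele where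
  toFun x := ⟨Pi.single q x, by
    obtain ⟨L, hL⟩ := x.2.2
    refine ⟨⟨L, fun r s hs => ?_⟩, (Set.finite_singleton q).subset fun r hr => ?_⟩
    · rcases eq_or_ne r q with rfl | hne
      · rw [Pi.single_eq_same]
        exact Subtype.ext (funext fun g => hL g s hs)
      · rw [Pi.single_eq_of_ne hne, smul_zero]
    · by_contra hne
      exact hr (by rw [Pi.single_eq_of_ne hne]; exact (semiUnit r).zero_mem)⟩
  map_zero' := by ext1; exact Pi.single_zero q
  map_add' x y := by ext1; exact Pi.single_add q x y

lemma comp_single (q : Nat.Primes) (x : Semi q) : comp q (single q x) = x := Pi.single_eq_same q x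

lemma comp_single_ne {q r : Nat.Primes} (h : r ≠ q) (x : Semi q) : comp r (single q x) = 0 :=
  Pi.single_eq_of_ne h x

lemma single_smul (q : Nat.Primes) (h : GQ) (x : Semi q) : single q (h • x) = h • single q x := by
  refine idele_ext fun r => ?_
  rcases eq_or_ne r q with rfl | hne
  · simp [comp_single]
  · simp [comp_single_ne hne]

end idele

section principal

/-- The multiplicative group of `Q̄`, written additively. -/
abbrev QMul := Additive QQbarˣ

instance : SMul GQ QMul where
  smul h a := Additive.ofMul (Units.map (h : QQbar →* QQbar) a.toMul)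

instance : DistribMulAction GQ QMul where
  one_smul a := by apply Additive.toMul.injective; apply Units.ext; rfl
  mul_smul h k a := by apply Additive.toMul.injective; apply Units.ext; rfl
  smul_zero h := by apply Additive.toMul.injective; apply Units.ext; exact map_one h
  smul_add h a b := by
    apply Additive.toMul.injective; apply Units.ext; exact map_mul h (a.toMul : QQbar) b.toMul

/-- The underlying algebraic number. -/
def qval (a : QMul) : QQbar := a.toMul

@[simp] lemma qval_add (a b : QMul) : qval (a + b) = qval a * qval b := rfl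
@[simp] lemma qval_zero : qval 0 = 1 := rfl
@[simp] lemma qval_smul (h : GQ) (a : QMul) : qval (h • a) = h (qval a) := rfl
lemma qval_ne_zero (a : QMul) : qval a ≠ 0 := Units.ne_zero _

lemma norm_le_one_of_monic {q : Nat.Primes} {x : Kq q} {f : Polynomial ℚ_[(q : ℕ)]} (hf : f.Monic)
    (hc : ∀ i, ‖f.coeff i‖ ≤ 1) (hx : Polynomial.aeval x f = 0) : ‖x‖ ≤ 1 := by
  by_contra h
  push Not at h
  have hn : f.natDegree ≠ 0 := fun h0 => by
    simp [Polynomial.eq_one_of_monic_natDegree_zero hf h0] at hx
  have hdom : ∀ i ∈ Finset.range f.natDegree, ‖f.coeff i • x ^ i‖ < ‖x ^ f.natDegree‖ := by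
    intro i hi
    rw [norm_smul, norm_pow, norm_pow]
    exact lt_of_le_of_lt (mul_le_of_le_one_left (by positivity) (hc i))
      (pow_lt_pow_right₀ h (Finset.mem_range.1 hi))
  rw [Polynomial.aeval_eq_sum_range, Finset.sum_range_succ, hf.coeff_natDegree, one_smul] at hx
  obtain ⟨i, hi, hle⟩ := IsUltrametricDist.exists_norm_finsetSum_le_of_nonempty
    (Finset.nonempty_range_iff.2 hn) (fun i => f.coeff i • x ^ i)
  rw [eq_neg_of_add_eq_zero_left hx, norm_neg] at hle
  exact absurd hle (not_le.2 (hdom i hi))

lemma finite_norm_gt_one (a : QQbar) :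
    {q : Nat.Primes | ∃ g : GQ, 1 < ‖emb q (g a)‖}.Finite := by
  set f := minpoly ℚ a with hf
  have hfm : f.Monic := minpoly.monic (Algebra.IsIntegral.isIntegral a)
  have hfin : ∀ n : ℕ, n ≠ 0 → {q : Nat.Primes | (q : ℕ) ∣ n}.Finite := fun n hn =>
    Set.Finite.of_finite_image (f := fun q : Nat.Primes => (q : ℕ))
      (n.divisors.finite_toSet.subset (by rintro _ ⟨q, hq, rfl⟩; exact Nat.mem_divisors.2 ⟨hq, hn⟩))
      Subtype.val_injective.injOn
  have hbad : (⋃ i ∈ f.support, {q : Nat.Primes | (q : ℕ) ∣ (f.coeff i).den}).Finite :=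
    f.support.finite_toSet.biUnion fun i _ => hfin _ (f.coeff i).den_nz
  refine hbad.subset ?_
  rintro q ⟨g, hg⟩
  by_contra hq
  simp only [Set.mem_iUnion, Set.mem_ofPred_eq, not_exists] at hq
  refine absurd (norm_le_one_of_monic (q := q) (f := f.map (algebraMap ℚ ℚ_[(q : ℕ)]))
    (hfm.map _) (fun i => ?_) ?_) (not_le.2 hg)
  · rw [Polynomial.coeff_map, eq_ratCast]
    by_cases hi : i ∈ f.support
    · exact Padic.norm_rat_le_one (hq i hi)
    · simp [Polynomial.notMem_support_iff.1 hi]
  · rw [Polynomial.aeval_map_algebraMap,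
      show emb q (g a) = ((emb q).comp (g : QQbar →ₐ[ℚ] QQbar)) a from rfl,
      Polynomial.aeval_algHom_apply, hf, minpoly.aeval, map_zero]

/-- Principal ideles. -/
def principal : QMul →+ Idele where
  toFun a := ⟨fun q => ⟨fun g => Additive.ofMul
      (Units.map ((emb q).comp (g : QQbar →ₐ[ℚ] QQbar) : QQbar →* Kq q) a.toMul),
      fun τ g => emb_loc q τ _, by
        obtain ⟨L, hL⟩ := exists_level_mem (qval a)
        refine ⟨L, fun g s hs => ?_⟩
        apply Additive.toMul.injective; apply Units.ext
        have : s (qval a) = qval a := (IntermediateField.mem_fixingSubgroup_iff _ _).1 hs _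
          hL
        exact congrArg (fun y => emb q (g y)) this⟩, by
      refine ⟨?_, ?_⟩
      · obtain ⟨L, hL⟩ := exists_level_mem (qval a)
        refine ⟨L, fun q s hs => semi_ext fun g => ?_⟩
        have : s (qval a) = qval a := (IntermediateField.mem_fixingSubgroup_iff _ _).1 hs _
          hL
        exact congrArg (fun y => emb q (g y)) this
      · refine ((finite_norm_gt_one (qval a)).union (finite_norm_gt_one (qval a)⁻¹)).subset
          fun q hq => ?_
        obtain ⟨g, hg⟩ := not_forall.1 hq
        rcases lt_or_gt_of_ne hg with h | h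
        · refine Or.inr ⟨g, ?_⟩
          have h' : ‖emb q (g (qval a))‖ < 1 := h
          rw [map_inv₀, map_inv₀, norm_inv]
          exact (one_lt_inv₀ (by simp [qval_ne_zero])).2 h'
        · exact Or.inl ⟨g, h⟩⟩
  map_zero' := idele_ext fun q => semi_ext fun g => by
    show emb q (g 1) = 1
    simp
  map_add' a b := idele_ext fun q => semi_ext fun g => by
    show emb q (g (qval a * qval b)) = emb q (g (qval a)) * emb q (g (qval b))
    simp

lemma sval_principal (a : QMul) (q : Nat.Primes) (g : GQ) :
    sval (comp q (principal a)) g = emb q (g (qval a)) := rfl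

lemma principal_smul (h : GQ) (a : QMul) : principal (h • a) = h • principal a :=
  idele_ext fun q => semi_ext fun g => rfl

lemma principal_injective : Function.Injective principal := by
  intro a b h
  have e := congrArg (fun x => sval (comp ⟨2, Nat.prime_two⟩ x) 1) h
  exact Additive.toMul.injective (Units.ext ((emb _).injective e))

/-- The idele classes of `Q̄`. -/
abbrev Cl := Idele ⧸ principal.range

instance : SMul GQ Cl where
  smul h := QuotientAddGroup.map _ _ (DistribSMul.toAddMonoidHom Idele h) (by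
    rintro _ ⟨a, rfl⟩
    exact ⟨h • a, principal_smul h a⟩)

/-- The class of an idele. -/
def toCl : Idele →+ Cl := QuotientAddGroup.mk' _

lemma toCl_surjective : Function.Surjective toCl := QuotientAddGroup.mk'_surjective _

lemma smul_toCl (h : GQ) (x : Idele) : h • toCl x = toCl (h • x) := rfl

instance : DistribMulAction GQ Cl where
  one_smul c := by obtain ⟨x, rfl⟩ := toCl_surjective c; rw [smul_toCl, one_smul]
  mul_smul h k c := by
    obtain ⟨x, rfl⟩ := toCl_surjective c; rw [smul_toCl, smul_toCl, smul_toCl, mul_smul]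
  smul_zero h := by rw [← map_zero toCl, smul_toCl, smul_zero]
  smul_add h c d := by
    obtain ⟨x, rfl⟩ := toCl_surjective c; obtain ⟨y, rfl⟩ := toCl_surjective d
    rw [← map_add, smul_toCl, smul_add, map_add, smul_toCl, smul_toCl]

lemma toCl_eq_zero_iff {x : Idele} : toCl x = 0 ↔ ∃ a, principal a = x :=
  QuotientAddGroup.eq_zero_iff x

end principal

end FLTAgent.Global
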