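import Fermat.Agent.Global.Cochain

/-!
Inflation–restriction in degrees one and two for the relative cochains of `Cochain`.
-/

set_option autoImplicit false
set_option linter.unusedSectionVars false

namespace FLTAgent.Global

variable {Γ : Type*} [Group Γ] {A : Type*} [AddCommGroup A] [DistribMulAction Γ A]
variable {H N' N : Subgroup Γ}

/-- If a 1-cocycle of `H/N` splits on `N'`, it comes from `H/N'`. -/
theorem exists_isZ1_inflation (hN' : Lvl H N') {f : Γ → A} (hf : IsZ1 H N f) (hfb : IsB1 N' f) :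
    ∃ a : A, IsZ1 H N' (fun g => f g - dd0 a g) := by
  obtain ⟨a, ha⟩ := hfb
  refine ⟨a, fun g hg s hs => ?_, fun g hg h hh => ?_⟩
  · have := hf.2 g hg s (hN'.le hs)
    simp only [this, ha s hs, dd0, smul_sub, mul_smul]
    abel
  · simp only [hf.2 g hg h hh, dd0, smul_sub, mul_smul]
    abel

/-- If `H¹(N'/N) = 0`, inflation to level `N` is injective in degree two. -/
theorem isB2_of_isB2_sublevel (hN' : Lvl H N')
    (h1 : ∀ f : Γ → A, IsZ1 N' N f → IsB1 N' f) {c : Γ → Γ → A} (hc : IsZ2 H N' c)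
    (hb : IsB2 H N c) : IsB2 H N' c := by
  classical
  obtain ⟨b, hbl, hbc⟩ := hb
  -- `c s t = c 1 1` for `s t ∈ N'`
  set z := c 1 1 with hz
  have hz1 : ∀ s ∈ N', ∀ t ∈ N', c s t = z := fun s hs t ht => by
    simpa using hc.1 1 H.one_mem 1 H.one_mem s hs t ht
  have hzs : ∀ s ∈ N', s • z = z := fun s hs => hc.smul_eq hN' H.one_mem H.one_mem hs
  have hf : IsZ1 N' N (fun g => b g - z) := by
    refine ⟨fun g hg s hs => by simp [hbl g (hN'.le hg) s hs], fun g hg h hh => ?_⟩
    have e := hbc g (hN'.le hg) h (hN'.le hh)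
    rw [hz1 g hg h hh, dd1] at e
    dsimp only
    rw [smul_sub, hzs g hg, ← sub_eq_zero]
    calc b (g * h) - z - (g • b h - z + (b g - z))
        = z - (g • b h - b (g * h) + b g) := by abel
      _ = 0 := sub_eq_zero.2 e
  obtain ⟨a, ha⟩ := h1 _ hf
  refine ⟨fun g => b g - dd0 a g, fun g hg s hs => ?_, fun g hg h hh => ?_⟩
  · have e := hbc g hg s (hN'.le hs)
    have e' : c g s = g • z := by
      rw [hz, ← hc.right_one hg]
      simpa using hc.1 g hg 1 H.one_mem 1 N'.one_mem s hs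
    rw [dd1, e', eq_add_of_sub_eq (ha s hs)] at e
    simp only [dd0, mul_smul, smul_sub, smul_add] at e ⊢
    rw [← sub_eq_zero] at e ⊢
    calc b (g * s) - (g • s • a - a) - (b g - (g • a - a))
        = g • z - (g • s • a - g • a + g • z - b (g * s) + b g) := by abel
      _ = 0 := e
  · rw [hbc g hg h hh, show (fun g => b g - dd0 a g) = b - dd0 a from rfl, dd1_sub, dd1_dd0,
      sub_zero]

/-- If `H¹(N'/N) = 0`, a class of `H/N` that dies on `N'` comes from `H/N'`. -/
theorem exists_isZ2_inflation (hN : Lvl H N) (hN' : Lvl H N') (hNN' : N ≤ N')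
    (h1 : ∀ f : Γ → A, IsZ1 N' N f → IsB1 N' f) {c : Γ → Γ → A} (hc : IsZ2 H N c)
    (hres : IsB2 N' N c) :
    ∃ b : Γ → A, IsLvl1 H N b ∧ IsZ2 H N' (fun g h => c g h - dd1 b g h) := by
  classical
  obtain ⟨b₀, hb₀, hcb₀⟩ := hres
  -- representatives of `H/N'`, equal to `1` on the trivial class
  let τ : Γ → Γ := fun g => if hg : g ∈ H then
      (if g ∈ N' then 1 else rep H N' (QuotientGroup.mk ⟨g, hg⟩)) else g
  have τmem : ∀ g ∈ H, τ g ∈ H ∧ (τ g)⁻¹ * g ∈ N' := by
    intro g hg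
    simp only [τ, dif_pos hg]
    split_ifs with h
    · exact ⟨H.one_mem, by simpa using h⟩
    · refine ⟨rep_mem H N' _, ?_⟩
      have := QuotientGroup.out_eq' (QuotientGroup.mk (s := N'.subgroupOf H) (⟨g, hg⟩ : H))
      rw [QuotientGroup.eq, Subgroup.mem_subgroupOf] at this
      simpa [rep] using this
  have τcongr : ∀ g ∈ H, ∀ s ∈ N', τ (g * s) = τ g := by
    intro g hg s hs
    have hgs := mul_mem hg (hN'.le hs)
    simp only [τ, dif_pos hg, dif_pos hgs, Subgroup.mul_mem_cancel_right N' hs]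
    split_ifs with h
    · rfl
    · congr 1
      rw [QuotientGroup.eq, Subgroup.mem_subgroupOf]
      simpa [mul_assoc] using N'.inv_mem hs
  have τone : ∀ g ∈ N', τ g = 1 := fun g hg => by simp [τ, hN'.le hg, hg]
  -- first make the cochain vanish on `H × N'`
  let b₁ : Γ → A := fun g => τ g • b₀ ((τ g)⁻¹ * g) - c (τ g) ((τ g)⁻¹ * g) + τ g • c 1 1
  have c1 : ∀ g ∈ H, ∀ s ∈ N', c g s = dd1 b₁ g s := by
    intro g hg s hs
    obtain ⟨tH, tN⟩ := τmem g hg
    set t := τ g with ht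
    set r := t⁻¹ * g with hr
    have eg : g = t * r := by simp [hr]
    have e := hcb₀ r tN s hs
    rw [dd1] at e
    have i := hc.2 t tH r (hN'.le tN) s (hN'.le hs)
    rw [← eg] at i
    simp only [dd1, b₁, τcongr g hg s hs, τone s hs, ← ht, ← hr, inv_one, one_mul, one_smul]
    rw [show t⁻¹ * (g * s) = r * s by rw [hr, mul_assoc], hc.left_one (hN'.le hs),
      sub_add_cancel]
    rw [show g • b₀ s = t • r • b₀ s by rw [← mul_smul, ← eg],
      show r • b₀ s = c r s + b₀ (r * s) - b₀ r by rw [e]; abel]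
    simp only [smul_add, smul_sub]
    rw [← sub_eq_zero, ← neg_eq_zero, ← i]
    abel
  have hb₁ : IsLvl1 H N b₁ := by
    intro g hg s hs
    obtain ⟨tH, tN⟩ := τmem g hg
    simp only [b₁, τcongr g hg s (hNN' hs)]
    rw [← mul_assoc (τ g)⁻¹ g s, hb₀ _ tN s hs]
    have := hc.1 _ tH _ (hN'.le tN) 1 N.one_mem s hs
    rw [mul_one] at this
    rw [this]
  let c₁ : Γ → Γ → A := fun g h => c g h - dd1 b₁ g h
  have c1id : ∀ g ∈ H, ∀ h ∈ H, ∀ j ∈ H,
      g • c₁ h j - c₁ (g * h) j + c₁ g (h * j) - c₁ g h = 0 := by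
    intro g hg h hh j hj
    have := hc.2 g hg h hh j hj
    simp only [c₁, dd1, smul_sub, smul_add, mul_smul, mul_assoc]
    rw [← this]; abel
  have z1 : ∀ g ∈ H, ∀ s ∈ N', c₁ g s = 0 := fun g hg s hs => sub_eq_zero.2 (c1 g hg s hs)
  have r1 : ∀ g ∈ H, ∀ h ∈ H, ∀ s ∈ N', c₁ g (h * s) = c₁ g h := by
    intro g hg h hh s hs
    have := c1id g hg h hh s (hN'.le hs)
    rw [z1 h hh s hs, z1 _ (mul_mem hg hh) s hs, smul_zero, sub_zero, zero_add, sub_eq_zero] at this
    exact this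
  -- the cocycle `s ↦ c₁ s h` on `N'`
  have lev : ∀ g ∈ H, ∀ h ∈ H, ∀ s ∈ N, c₁ (g * s) h = c₁ g h := by
    intro g hg h hh s hs
    have e : g * s * h = g * h * (h⁻¹ * s * h) := by group
    have ec := hc.1 g hg h hh s hs 1 N.one_mem
    rw [mul_one] at ec
    simp only [c₁, dd1, ec, hb₁ g hg s hs, e, hb₁ _ (mul_mem hg hh) _ (hN.conj h hh s hs)]
    have hfix : s • b₁ h = b₁ h := by
      obtain ⟨tH, tN⟩ := τmem h hh
      have hb₀fix : ∀ u ∈ N', ∀ v ∈ N, v • b₀ u = b₀ u := by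
        intro u hu v hv
        have e := hcb₀ v (hNN' hv) u hu
        have e1 : c v u = c 1 1 := by
          rw [← hc.left_one (hN'.le hu)]
          simpa using hc.1 1 H.one_mem u (hN'.le hu) v hv 1 N.one_mem
        have e2 : b₀ (v * u) = b₀ u := by
          rw [show v * u = u * (u⁻¹ * v * u) by group]
          exact hb₀ u hu _ (hN.conj u (hN'.le hu) v hv)
        have e3 : b₀ v = b₀ 1 := by simpa using hb₀ 1 N'.one_mem v hv
        have e4 : c 1 1 = b₀ 1 := by simpa [dd1] using hcb₀ 1 N'.one_mem 1 N'.one_mem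
        rw [dd1, e1, e2, e3, e4] at e
        rw [← sub_eq_zero]
        calc v • b₀ u - b₀ u = (v • b₀ u - b₀ u + b₀ 1) - b₀ 1 := by abel
          _ = 0 := by rw [← e, sub_self]
      have hconj : (τ h)⁻¹ * s * τ h ∈ N := hN.conj _ tH s hs
      have esm : ∀ x : A, ((τ h)⁻¹ * s * τ h) • x = x → s • τ h • x = τ h • x := by
        intro x hx
        conv_rhs => rw [← hx]
        rw [← mul_smul, ← mul_smul]
        congr 1; group
      simp only [b₁, smul_add, smul_sub]
      rw [esm _ (hb₀fix _ tN _ hconj), hc.smul_eq hN tH (hN'.le tN) hs,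
        esm _ (hc.smul_eq hN H.one_mem H.one_mem hconj)]
    rw [mul_smul, hfix]
  have x1 : ∀ h ∈ H, IsZ1 N' N (fun s => c₁ s h) := by
    refine fun h hh => ⟨fun g hg s hs => lev g (hN'.le hg) h hh s hs, fun g hg k hk => ?_⟩
    have i := c1id g (hN'.le hg) k (hN'.le hk) h hh
    rw [z1 g (hN'.le hg) k hk,
      show k * h = h * (h⁻¹ * k * h) by group,
      r1 g (hN'.le hg) h hh _ (hN'.conj h hh k hk), sub_zero] at i
    rw [← sub_eq_zero, ← neg_eq_zero, ← i]; abel
  -- choose potentials, one for each coset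
  let y : Γ → A := fun g => if hg : τ g ∈ H ∧ g ∉ N' then (h1 _ (x1 (τ g) hg.1)).choose else 0
  have hy : ∀ s ∈ N', ∀ h ∈ H, c₁ s h = s • y h - y h := by
    intro s hs h hh
    by_cases hhN : h ∈ N'
    · have : y h = 0 := by simp [y, hhN]
      rw [this, z1 s (hN'.le hs) h hhN]; simp
    · obtain ⟨tH, tN⟩ := τmem h hh
      have hcond : τ h ∈ H ∧ h ∉ N' := ⟨tH, hhN⟩
      have e := (h1 _ (x1 (τ h) tH)).choose_spec s hs
      have : y h = (h1 _ (x1 (τ h) tH)).choose := by simp only [y, dif_pos hcond]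
      rw [this]
      conv_lhs => rw [show h = τ h * ((τ h)⁻¹ * h) by group, r1 s (hN'.le hs) _ tH _ tN]
      exact e
  have hyl : IsLvl1 H N' y := by
    intro g hg s hs
    simp only [y, τcongr g hg s hs, Subgroup.mul_mem_cancel_right N' hs]
  have hy1 : ∀ s ∈ N', y s = 0 := fun s hs => by simp [y, hs]
  refine ⟨b₁ + y, hb₁.add (hyl.mono le_rfl hNN'), ?_, fun g hg h hh j hj => ?_⟩
  · -- invariance under `N' × N'`
    intro g hg h hh s hs s' hs'
    have e2 : ∀ g ∈ H, ∀ h ∈ H, c g h - dd1 (b₁ + y) g h = c₁ g h - dd1 y g h := by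
      intros; simp [c₁, dd1_add]; abel
    have ghs : g * s ∈ H := mul_mem hg (hN'.le hs)
    have hhs : h * s' ∈ H := mul_mem hh (hN'.le hs')
    simp only
    rw [e2 _ ghs _ hhs, e2 g hg h hh, r1 _ ghs h hh s' hs']
    simp only [dd1, hyl h hh s' hs', hyl g hg s hs]
    have eg : g * s * (h * s') = g * h * ((h⁻¹ * s * h) * s') := by group
    rw [eg, hyl _ (mul_mem hg hh) _ (mul_mem (hN'.conj h hh s hs) hs')]
    have i := c1id g hg s (hN'.le hs) h hh
    rw [hy s hs h hh, z1 g hg s hs,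
      show s * h = h * (h⁻¹ * s * h) by group, r1 g hg h hh _ (hN'.conj h hh s hs), sub_zero] at i
    rw [mul_smul]
    simp only [smul_sub] at i
    rw [← sub_eq_zero, ← neg_eq_zero, ← i]; abel
  · have := c1id g hg h hh j hj
    simp only [c₁, dd1_add] at this ⊢
    simp only [dd1, smul_sub, smul_add, mul_smul, mul_assoc] at this ⊢
    rw [← this]; abel

end FLTAgent.Global
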