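import Fermat.Agent.Global.Defs
import Fermat.Agent.Global.Semilocal.Levels
import Fermat.Agent.Global.Semilocal.Approx

/-!
Finiteness of the class number, in idelic form, without any dictionary between places and primes:
an integral idele `x` of the fixed field `k` of `H` determines the ideal of the integers of `k`
whose absolute values are bounded by those of `x`, and by approximation is determined by it.
-/

set_option autoImplicit false

noncomputable section

open NumberField
open scoped nonZeroDivisors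

namespace FLTAgent.Global

/-! ### Fixed fields -/

/-- The fixed field of `H`. -/
abbrev fixField (H : Subgroup GQ) : IntermediateField ℚ QQbar := IntermediateField.fixedField H

lemma fixField_le_fld (L : Level) {H : Subgroup GQ} (hH : L.grp ≤ H) : fixField H ≤ L.fld :=
  (IntermediateField.fixedField_le hH).trans_eq (InfiniteGalois.fixedField_fixingSubgroup L.fld)

lemma finiteDimensional_fixField (L : Level) {H : Subgroup GQ} (hH : L.grp ≤ H) :
    FiniteDimensional ℚ (fixField H) := by
  have := L.fin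
  exact FiniteDimensional.of_injective (IntermediateField.inclusion (fixField_le_fld L hH)).toLinearMap
    (IntermediateField.inclusion (fixField_le_fld L hH)).injective

lemma numberField_fixField (L : Level) {H : Subgroup GQ} (hH : L.grp ≤ H) :
    NumberField (fixField H) where
  to_charZero := inferInstance
  to_finiteDimensional := finiteDimensional_fixField L hH

lemma mem_fixField_iff {H : Subgroup GQ} {x : QQbar} : x ∈ fixField H ↔ ∀ s ∈ H, s x = x :=
  IntermediateField.mem_fixedField_iff H x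

/-- An element of `Q̄ˣ`, additively. -/
def toQMul (a : QQbar) (ha : a ≠ 0) : QMul := Additive.ofMul (Units.mk0 a ha)

@[simp] lemma qval_toQMul (a : QQbar) (ha : a ≠ 0) : qval (toQMul a ha) = a := rfl

lemma qmul_ext {a b : QMul} (h : qval a = qval b) : a = b :=
  Additive.toMul.injective (Units.ext h)

lemma mem_fixSub_qmul {H : Subgroup GQ} {a : QMul} :
    a ∈ fixSub (A := QMul) H ↔ qval a ∈ fixField H := by
  rw [mem_fixField_iff, mem_fixSub]
  exact forall₂_congr fun s _ =>
    ⟨fun h => (qval_smul s a).symm.trans (congrArg qval h), fun h => qmul_ext h⟩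

lemma principal_mem_fixSub {H : Subgroup GQ} {a : QMul} (ha : a ∈ fixSub (A := QMul) H) :
    principal a ∈ fixSub (A := Idele) H := fun s hs => by rw [← principal_smul, ha s hs]

/-! ### Values -/

lemma comp_mem_fixSub {H : Subgroup GQ} {x : Idele} (hx : x ∈ fixSub (A := Idele) H)
    (q : Nat.Primes) : comp q x ∈ fixSub (A := Semi q) H := fun s hs => by
  rw [← comp_smul, hx s hs]

lemma sval_mul_right {q : Nat.Primes} {H : Subgroup GQ} {x : Semi q}
    (hx : x ∈ fixSub (A := Semi q) H) (g : GQ) {s : GQ} (hs : s ∈ H) :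
    sval x (g * s) = sval x g := by rw [← sval_smul, hx s hs]

lemma finite_range_sval (L : Level) {q : Nat.Primes} {x : Semi q}
    (hx : x ∈ fixSub (A := Semi q) L.grp) : (Set.range (sval x)).Finite := by
  have := L.finite_quotient
  refine (Set.finite_range fun i : GQ ⧸ L.grp => sval x i.out).subset ?_
  rintro _ ⟨g, rfl⟩
  refine ⟨QuotientGroup.mk g, ?_⟩
  have hs : (QuotientGroup.mk g : GQ ⧸ L.grp).out⁻¹ * g ∈ L.grp :=
    QuotientGroup.eq.1 (QuotientGroup.out_eq' _)
  show sval x _ = sval x g
  rw [← sval_mul_right hx _ hs, mul_inv_cancel_left]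

lemma norm_natCast_kq_eq_one {q : Nat.Primes} {n : ℕ} (h : ¬ (q : ℕ) ∣ n) :
    ‖(n : Kq q)‖ = 1 := by
  rw [← map_natCast (algebraMap ℚ_[(q : ℕ)] (Kq q)), norm_algebraMap', Padic.norm_natCast_eq_one_iff]
  exact (q.2.coprime_iff_not_dvd).2 h

lemma norm_prime_kq (q : Nat.Primes) : ‖((q : ℕ) : Kq q)‖ = ((q : ℕ) : ℝ)⁻¹ := by
  rw [← map_natCast (algebraMap ℚ_[(q : ℕ)] (Kq q)), norm_algebraMap', Padic.norm_p]

lemma exists_nat_mul_le (L : Level) (Q : Finset Nat.Primes) {x : Idele}
    (hx : x ∈ fixSub (A := Idele) L.grp) :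
    ∃ m : ℕ, 0 < m ∧ (∀ q : Nat.Primes, q ∉ Q → ¬ (q : ℕ) ∣ m) ∧
      ∀ q ∈ Q, ∀ g, ‖(m : Kq q)‖ * ‖sval (comp q x) g‖ ≤ 1 := by
  classical
  induction Q using Finset.induction_on with
  | empty => exact ⟨1, one_pos, fun q _ h => q.2.ne_one (Nat.dvd_one.1 h), by simp⟩
  | insert r Q hr ih =>
    obtain ⟨m, hm, hmQ, hle⟩ := ih
    have hfin := finite_range_sval L (comp_mem_fixSub hx r)
    obtain ⟨B, hB⟩ := (hfin.image norm).bddAbove
    obtain ⟨N, hN⟩ := pow_unbounded_of_one_lt B (by exact_mod_cast r.2.one_lt : (1 : ℝ) < (r : ℕ))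
    refine ⟨m * (r : ℕ) ^ N, mul_pos hm (pow_pos r.2.pos _), fun q hq h => ?_, fun q hq g => ?_⟩
    · rw [Finset.mem_insert, not_or] at hq
      rcases (Nat.Prime.dvd_mul q.2).1 h with h | h
      · exact hmQ q hq.2 h
      · exact hq.1 (Subtype.ext ((Nat.prime_dvd_prime_iff_eq q.2 r.2).1 (q.2.dvd_of_dvd_pow h)))
    · rw [Finset.mem_insert] at hq
      push_cast
      rw [norm_mul, norm_pow]
      rcases hq with rfl | hq
      · rw [norm_natCast_kq_eq_one (hmQ q hr), one_mul, norm_prime_kq, inv_pow,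
          inv_mul_le_one₀ (by positivity [q.2.pos])]
        exact (hB ⟨_, ⟨g, rfl⟩, rfl⟩).trans hN.le
      · refine le_trans ?_ (hle q hq g)
        gcongr
        exact mul_le_of_le_one_right (norm_nonneg _)
          (pow_le_one₀ (norm_nonneg _) (IsUltrametricDist.norm_natCast_le_one _ _))

/-! ### Integrality from absolute values -/

lemma norm_coeff_prod_X_sub_C_le {q : Nat.Primes} (s : Multiset (Kq q)) (h : ∀ r ∈ s, ‖r‖ ≤ 1) :
    ∀ i, ‖((s.map fun r => Polynomial.X - Polynomial.C r).prod).coeff i‖ ≤ 1 := by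
  induction s using Multiset.induction_on with
  | empty =>
    intro i
    rw [Multiset.map_zero, Multiset.prod_zero, Polynomial.coeff_one]
    split_ifs <;> simp
  | cons r s ih =>
    intro i
    have hs := ih fun t ht => h t (Multiset.mem_cons_of_mem ht)
    rw [Multiset.map_cons, Multiset.prod_cons, sub_mul, Polynomial.coeff_sub,
      Polynomial.coeff_C_mul, sub_eq_add_neg]
    refine (IsUltrametricDist.norm_add_le_max _ _).trans (max_le ?_ ?_)
    · cases i with
      | zero => simp
      | succ i => rw [Polynomial.coeff_X_mul]; exact hs i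
    · rw [norm_neg, norm_mul]
      exact mul_le_one₀ (h r (Multiset.mem_cons_self _ _)) (norm_nonneg _) (hs i)

lemma not_dvd_den_of_norm_le_one {p : ℕ} [hp : Fact p.Prime] {c : ℚ}
    (h : ‖(c : ℚ_[p])‖ ≤ 1) : ¬ p ∣ c.den := by
  intro hd
  have h1 : ‖((c.den : ℕ) : ℚ_[p])‖ < 1 := Padic.norm_natCast_lt_one_iff.2 hd
  have h2 : ‖((c.num : ℤ) : ℚ_[p])‖ = 1 := by
    have hcop := c.reduced
    have : ¬ (p : ℤ) ∣ c.num := fun hn =>
      hp.out.ne_one (Nat.eq_one_of_dvd_coprimes hcop (Int.natCast_dvd.1 hn) hd)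
    refine le_antisymm (Padic.norm_int_le_one _) (not_lt.1 fun hlt => this ?_)
    exact Padic.norm_intCast_lt_one_iff.1 hlt
  have e : (c : ℚ_[p]) * ((c.den : ℕ) : ℚ_[p]) = ((c.num : ℤ) : ℚ_[p]) := by
    have := congrArg (Rat.cast : ℚ → ℚ_[p]) (Rat.mul_den_eq_num c)
    push_cast at this
    exact this
  rw [← e, norm_mul] at h2
  exact absurd h2 (mul_lt_one_of_nonneg_of_lt_one_right h (norm_nonneg _) h1).ne

/-- An algebraic number all whose absolute values are at most one is an algebraic integer. -/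
theorem isIntegral_of_norm_le_one {a : QQbar}
    (h : ∀ (q : Nat.Primes) (g : GQ), ‖emb q (g a)‖ ≤ 1) : IsIntegral ℤ a := by
  classical
  set f := minpoly ℚ a with hf
  have hfm : f.Monic := minpoly.monic (Algebra.IsIntegral.isIntegral a)
  set fQ := f.map (algebraMap ℚ QQbar) with hfQ
  have hsplit := (IsAlgClosed.splits fQ).eq_prod_roots_of_monic (hfm.map _)
  have hden : ∀ i, (f.coeff i).den = 1 := by
    intro i
    by_contra hne
    obtain ⟨q, hq, hqd⟩ := Nat.exists_prime_and_dvd hne
    have : Fact q.Prime := ⟨hq⟩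
    refine not_dvd_den_of_norm_le_one (c := f.coeff i) ?_ hqd
    let Q : Nat.Primes := ⟨q, hq⟩
    have e1 : fQ.map (emb Q).toRingHom
        = ((fQ.roots.map fun s => emb Q s).map fun r => Polynomial.X - Polynomial.C r).prod := by
      conv_lhs => rw [hsplit]
      rw [Polynomial.map_multiset_prod, Multiset.map_map, Multiset.map_map]
      congr 1
      refine Multiset.map_congr rfl fun s _ => ?_
      simp
    have e2 : (fQ.map (emb Q).toRingHom).coeff i
        = algebraMap ℚ_[q] (Kq Q) ((f.coeff i : ℚ) : ℚ_[q]) := by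
      rw [hfQ, Polynomial.coeff_map, Polynomial.coeff_map]
      simp
    have key := norm_coeff_prod_X_sub_C_le (q := Q) (fQ.roots.map fun s => emb Q s) (by
      intro r hr
      obtain ⟨s, hs, rfl⟩ := Multiset.mem_map.1 hr
      rw [Polynomial.mem_roots', Polynomial.IsRoot.def, hfQ, Polynomial.eval_map_algebraMap] at hs
      obtain ⟨g, rfl⟩ := minpoly.exists_algEquiv_of_root' (Algebra.IsAlgebraic.isAlgebraic a) hs.2
      exact h Q g) i
    rw [← e1, e2, norm_algebraMap'] at key
    exact key
  have hl : f ∈ Polynomial.lifts (Int.castRingHom ℚ) := by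
    rw [Polynomial.lifts_iff_coeff_lifts]
    exact fun i => ⟨(f.coeff i).num, (Rat.den_eq_one_iff _).1 (hden i)⟩
  obtain ⟨P, hP, -, hPm⟩ := Polynomial.lifts_and_natDegree_eq_and_monic hl hfm
  refine ⟨P, hPm, ?_⟩
  have := minpoly.aeval ℚ a
  rw [← hf, ← hP, Polynomial.aeval_def, Polynomial.eval₂_map] at this
  rwa [RingHom.ext_int (algebraMap ℤ QQbar) ((algebraMap ℚ QQbar).comp (Int.castRingHom ℚ))]

lemma norm_emb_le_one_of_isIntegral {a : QQbar} (ha : IsIntegral ℤ a) (q : Nat.Primes) (g : GQ) :
    ‖emb q (g a)‖ ≤ 1 := by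
  refine norm_le_one_of_monic (f := (minpoly ℤ a).map (Int.castRingHom ℚ_[(q : ℕ)]))
    ((minpoly.monic ha).map _) (fun i => ?_) ?_
  · rw [Polynomial.coeff_map]
    exact Padic.norm_int_le_one _
  · rw [Polynomial.aeval_def, Polynomial.eval₂_map,
      show emb q (g a) = (((emb q).comp (g : QQbar →ₐ[ℚ] QQbar)).toRingHom : QQbar →+* Kq q) a from rfl]
    have := congrArg (((emb q).comp (g : QQbar →ₐ[ℚ] QQbar)).toRingHom) (minpoly.aeval ℤ a)
    rw [map_zero, Polynomial.aeval_def, Polynomial.hom_eval₂] at this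
    rwa [RingHom.ext_int ((algebraMap ℚ_[(q : ℕ)] (Kq q)).comp (Int.castRingHom ℚ_[(q : ℕ)]))
      ((((emb q).comp (g : QQbar →ₐ[ℚ] QQbar)).toRingHom).comp (algebraMap ℤ QQbar))]

/-! ### Integral ideles and their ideals -/

/-- All absolute values are at most one. -/
def IntegralIdele (x : Idele) : Prop := ∀ q g, ‖sval (comp q x) g‖ ≤ 1

variable {H : Subgroup GQ}

/-- The elements bounded by an idele. -/
def boundIdeal (H : Subgroup GQ) (x : Idele) : Ideal (𝓞 (fixField H)) where
  carrier := {c | ∀ q g, ‖emb q (g ((c : fixField H) : QQbar))‖ ≤ ‖sval (comp q x) g‖}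
  zero_mem' := fun q g => by simp
  add_mem' := fun {a b} ha hb q g => by
    show ‖emb q (g (((a : fixField H) : QQbar) + ((b : fixField H) : QQbar)))‖ ≤ _
    rw [map_add, map_add]
    exact (IsUltrametricDist.norm_add_le_max _ _).trans (max_le (ha q g) (hb q g))
  smul_mem' := fun r c hc q g => by
    show ‖emb q (g (((r : fixField H) : QQbar) * ((c : fixField H) : QQbar)))‖ ≤ _
    rw [map_mul, map_mul, norm_mul]
    have hr : IsIntegral ℤ ((r : fixField H) : QQbar) :=
      r.2.map ((fixField H).val.restrictScalars ℤ)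
    exact (mul_le_of_le_one_left (norm_nonneg _) (norm_emb_le_one_of_isIntegral hr q g)).trans
      (hc q g)

lemma mem_boundIdeal {x : Idele} {c : 𝓞 (fixField H)} :
    c ∈ boundIdeal H x ↔ ∀ q g, ‖emb q (g ((c : fixField H) : QQbar))‖ ≤ ‖sval (comp q x) g‖ :=
  Iff.rfl

/-- An element of the ring of integers from bounds on its absolute values. -/
lemma exists_integer {a : QQbar} (ha : a ∈ fixField H)
    (h : ∀ (q : Nat.Primes) (g : GQ), ‖emb q (g a)‖ ≤ 1) :
    ∃ c : 𝓞 (fixField H), ((c : fixField H) : QQbar) = a := by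
  have h1 : IsIntegral ℤ (⟨a, ha⟩ : fixField H) :=
    (isIntegral_algHom_iff ((fixField H).val.restrictScalars ℤ)
      (fun _ _ h => Subtype.ext h)).1 (isIntegral_of_norm_le_one h)
  exact ⟨⟨⟨a, ha⟩, h1⟩, rfl⟩

/-- The absolute values of an integral idele are attained by integers bounded by it. -/
lemma exists_mem_boundIdeal (L : Level) (hH : L.grp ≤ H) {x : Idele}
    (hx : x ∈ fixSub (A := Idele) H) (hi : IntegralIdele x) (q₀ : Nat.Primes) :
    ∃ c ∈ boundIdeal H x, ∀ g, ‖emb q₀ (g ((c : fixField H) : QQbar))‖ = ‖sval (comp q₀ x) g‖ := by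
  classical
  set T := insert q₀ x.2.2.toFinset with hT
  obtain ⟨a, ha, hy⟩ := exists_principal_approx L hH 1 one_ne_zero T hx
  have hnorm : ∀ q ∈ T, ∀ g, ‖emb q (g (qval a))‖ = ‖sval (comp q x) g‖ := by
    intro q hq g
    obtain ⟨y, hy1, hy2⟩ := hy q hq
    have h1 : ‖sval (comp q (x - principal a)) g‖ = 1 := by
      rw [hy2, one_smul]; exact hy1.1 g
    rw [map_sub, sub_eq_add_neg, sval_add, sval_neg, norm_mul, norm_inv, sval_principal] at h1
    exact (mul_inv_eq_one₀ (by simp [qval_ne_zero])).1 h1 |>.symm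
  obtain ⟨m, hm, hmT, hle⟩ := exists_nat_mul_le L ((principal a).2.2.toFinset \ T)
    (x := principal a) (fun s hs => (principal_mem_fixSub ha) s (hH hs))
  have hmem : (m : QQbar) * qval a ∈ fixField H :=
    mul_mem (natCast_mem _ m) (mem_fixSub_qmul.1 ha)
  have hT' : ∀ q ∈ T, ∀ g, ‖emb q (g ((m : QQbar) * qval a))‖ = ‖sval (comp q x) g‖ := by
    intro q hq g
    rw [map_mul, map_natCast, map_mul, map_natCast, norm_mul,
      norm_natCast_kq_eq_one (hmT q fun h => (Finset.mem_sdiff.1 h).2 hq), one_mul, hnorm q hq g]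
  have hout : ∀ q, q ∉ T → ∀ g, ‖sval (comp q x) g‖ = 1 := by
    intro q hq g
    have : comp q x ∈ semiUnit q := by
      by_contra hu
      exact hq (Finset.mem_insert_of_mem ((Set.Finite.mem_toFinset _).2 hu))
    exact this g
  have hall : ∀ q g, ‖emb q (g ((m : QQbar) * qval a))‖ ≤ ‖sval (comp q x) g‖ := by
    intro q g
    by_cases hq : q ∈ T
    · exact (hT' q hq g).le
    · rw [hout q hq, map_mul, map_natCast, map_mul, map_natCast, norm_mul]
      by_cases hq' : q ∈ (principal a).2.2.toFinset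
      · rw [← sval_principal]
        exact hle q (Finset.mem_sdiff.2 ⟨hq', hq⟩) g
      · have : comp q (principal a) ∈ semiUnit q := by
          by_contra hu
          exact hq' ((Set.Finite.mem_toFinset _).2 hu)
        rw [← sval_principal, this g, mul_one]
        exact IsUltrametricDist.norm_natCast_le_one _ _
  obtain ⟨c, hc⟩ := exists_integer hmem fun q g => (hall q g).trans (hi q g)
  exact ⟨c, fun q g => by rw [hc]; exact hall q g,
    fun g => by rw [hc]; exact hT' q₀ (Finset.mem_insert_self _ _) g⟩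

lemma boundIdeal_ne_bot (L : Level) (hH : L.grp ≤ H) {x : Idele}
    (hx : x ∈ fixSub (A := Idele) H) (hi : IntegralIdele x) : boundIdeal H x ≠ ⊥ := by
  obtain ⟨c, hc, hc'⟩ := exists_mem_boundIdeal L hH hx hi ⟨2, Nat.prime_two⟩
  refine Submodule.ne_bot_iff _ |>.2 ⟨c, hc, fun h => ?_⟩
  have := hc' 1
  rw [h] at this
  simp at this
  exact sval_ne_zero _ _ (norm_eq_zero.1 this.symm)

/-- Multiplication by a nonzero integer. -/
lemma span_mul_boundIdeal {x : Idele} {e : 𝓞 (fixField H)} (he : e ≠ 0)
    (hi : IntegralIdele x) :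
    Ideal.span {e} * boundIdeal H x
      = boundIdeal H (x + principal (toQMul ((e : fixField H) : QQbar) (by simpa using he))) := by
  have hv : ∀ q g, sval (comp q (x + principal (toQMul ((e : fixField H) : QQbar)
      (by simpa using he)))) g = sval (comp q x) g * emb q (g ((e : fixField H) : QQbar)) :=
    fun q g => by rw [map_add, sval_add, sval_principal, qval_toQMul]
  ext c
  rw [Ideal.mem_span_singleton_mul, mem_boundIdeal]
  constructor
  · rintro ⟨z, hz, rfl⟩ q g
    rw [hv]
    show ‖emb q (g (((e : fixField H) : QQbar) * ((z : fixField H) : QQbar)))‖ ≤ _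
    rw [map_mul, map_mul, norm_mul, norm_mul, mul_comm]
    gcongr
    exact hz q g
  · intro hc
    have he' : ((e : fixField H) : QQbar) ≠ 0 := by simpa using he
    have hb : ∀ q g, ‖emb q (g (((c : fixField H) : QQbar) / ((e : fixField H) : QQbar)))‖
        ≤ ‖sval (comp q x) g‖ := by
      intro q g
      rw [map_div₀, map_div₀, norm_div, div_le_iff₀ (norm_pos_iff.2 (by simp [he']))]
      exact (hc q g).trans_eq (by rw [hv, norm_mul])
    obtain ⟨z, hz⟩ := exists_integer (div_mem (c : fixField H).2 (e : fixField H).2)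
      fun q g => (hb q g).trans (hi q g)
    refine ⟨z, fun q g => by rw [hz]; exact hb q g, ?_⟩
    refine RingOfIntegers.coe_injective (Subtype.ext ?_)
    rw [map_mul, MulMemClass.coe_mul, hz, mul_div_cancel₀ _ he']

lemma norm_sval_eq_of_boundIdeal_eq (L : Level) (hH : L.grp ≤ H) {x y : Idele}
    (hx : x ∈ fixSub (A := Idele) H) (hy : y ∈ fixSub (A := Idele) H)
    (hxi : IntegralIdele x) (hyi : IntegralIdele y) (h : boundIdeal H x = boundIdeal H y)
    (q : Nat.Primes) (g : GQ) : ‖sval (comp q x) g‖ = ‖sval (comp q y) g‖ := by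
  obtain ⟨c, hc, hc'⟩ := exists_mem_boundIdeal L hH hx hxi q
  obtain ⟨d, hd, hd'⟩ := exists_mem_boundIdeal L hH hy hyi q
  exact le_antisymm ((hc' g).symm.trans_le ((h ▸ hc) q g))
    ((hd' g).symm.trans_le ((h.symm ▸ hd) q g))

/-- Every fixed idele becomes integral after adding a principal one. -/
lemma exists_integralIdele (L : Level) (hH : L.grp ≤ H) {x : Idele}
    (hx : x ∈ fixSub (A := Idele) H) :
    ∃ a ∈ fixSub (A := QMul) H, IntegralIdele (x + principal a) := by
  obtain ⟨m, hm, hmQ, hle⟩ := exists_nat_mul_le L x.2.2.toFinset (x := x)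
    fun s hs => hx s (hH hs)
  refine ⟨toQMul (m : QQbar) (Nat.cast_ne_zero.2 hm.ne'),
    mem_fixSub_qmul.2 (natCast_mem _ m), fun q g => ?_⟩
  rw [map_add, sval_add, sval_principal, qval_toQMul, map_natCast, map_natCast, norm_mul, mul_comm]
  by_cases hq : q ∈ x.2.2.toFinset
  · exact hle q hq g
  · have : comp q x ∈ semiUnit q := by
      by_contra hu
      exact hq ((Set.Finite.mem_toFinset _).2 hu)
    rw [this g, mul_one]
    exact IsUltrametricDist.norm_natCast_le_one _ _

/-- Finiteness of the class number: finitely many representatives modulo principal ideles and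
ideles which are units everywhere. -/
theorem exists_finset_ideleReps (L : Level) (hH : L.grp ≤ H) :
    ∃ Y : Finset Idele, (∀ y ∈ Y, y ∈ fixSub (A := Idele) H) ∧
      ∀ x ∈ fixSub (A := Idele) H, ∃ y ∈ Y, ∃ a ∈ fixSub (A := QMul) H,
        x - y - principal a ∈ sIdele ∅ := by
  classical
  have := numberField_fixField L hH
  let X := {x : Idele // x ∈ fixSub (A := Idele) H ∧ IntegralIdele x}
  let key : X → ClassGroup (𝓞 (fixField H)) := fun x =>
    ClassGroup.mk0 ⟨boundIdeal H x.1,
      mem_nonZeroDivisors_of_ne_zero (boundIdeal_ne_bot L hH x.2.1 x.2.2)⟩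
  have := Fintype.ofFinite (Set.range key)
  refine ⟨Finset.univ.image fun c : Set.range key => (Set.rangeSplitting key c).1,
    fun y hy => ?_, fun x hx => ?_⟩
  · obtain ⟨c, -, rfl⟩ := Finset.mem_image.1 hy
    exact (Set.rangeSplitting key c).2.1
  obtain ⟨a, ha, hxa⟩ := exists_integralIdele L hH hx
  let x' : X := ⟨x + principal a, add_mem hx (principal_mem_fixSub ha), hxa⟩
  set z : X := Set.rangeSplitting key ⟨key x', ⟨x', rfl⟩⟩ with hzdef
  have hz : key z = key x' := Set.apply_rangeSplitting key _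
  obtain ⟨e, e', he, he', hee⟩ := ClassGroup.mk0_eq_mk0_iff.1 hz
  simp only at hee
  rw [span_mul_boundIdeal he z.2.2, span_mul_boundIdeal he' x'.2.2] at hee
  set A := toQMul ((e : fixField H) : QQbar) (by simpa using he)
  set A' := toQMul ((e' : fixField H) : QQbar) (by simpa using he')
  have hA : A ∈ fixSub (A := QMul) H := mem_fixSub_qmul.2 (e : fixField H).2
  have hA' : A' ∈ fixSub (A := QMul) H := mem_fixSub_qmul.2 (e' : fixField H).2
  have hint : ∀ (w : Idele), IntegralIdele w → ∀ u : 𝓞 (fixField H), ∀ hu,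
      IntegralIdele (w + principal (toQMul ((u : fixField H) : QQbar) hu)) := by
    intro w hw u hu q g
    rw [map_add, sval_add, sval_principal, qval_toQMul, norm_mul]
    exact mul_le_one₀ (hw q g) (norm_nonneg _)
      (norm_emb_le_one_of_isIntegral (u.2.map ((fixField H).val.restrictScalars ℤ)) q g)
  have hn := norm_sval_eq_of_boundIdeal_eq L hH (add_mem z.2.1 (principal_mem_fixSub hA))
    (add_mem x'.2.1 (principal_mem_fixSub hA')) (hint _ z.2.2 _ _) (hint _ x'.2.2 _ _) hee
  refine ⟨z.1, Finset.mem_image.2 ⟨_, Finset.mem_univ _, rfl⟩, A - A' - a,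
    sub_mem (sub_mem hA hA') ha, fun q _ g => ?_⟩
  have e1 : x - z.1 - principal (A - A' - a)
      = (x'.1 + principal A') - (z.1 + principal A) := by
    rw [map_sub, map_sub]
    show _ = (x + principal a + principal A') - _
    abel
  rw [e1, map_sub, sub_eq_add_neg, sval_add, sval_neg, norm_mul, norm_inv, ← hn q g]
  exact mul_inv_cancel₀ (by simp [sval_ne_zero])

/-- Every idele of the fixed field of `H` is principal up to an idele supported by `T`, for `T` large
(finiteness of the class number). -/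
theorem exists_finset_classGroup (L : Level) {H : Subgroup GQ} (hH : L.grp ≤ H) :
    ∃ T : Finset Nat.Primes, ∀ x ∈ fixSub (A := Idele) H,
      ∃ a ∈ fixSub (A := QMul) H, x - principal a ∈ sIdele T := by
  classical
  obtain ⟨Y, -, hY⟩ := exists_finset_ideleReps L hH
  refine ⟨Y.biUnion fun y => y.2.2.toFinset, fun x hx => ?_⟩
  obtain ⟨y, hy, a, ha, h⟩ := hY x hx
  refine ⟨a, ha, fun q hq => ?_⟩
  have hyq : comp q y ∈ semiUnit q := by
    by_contra hu
    exact hq (Finset.mem_biUnion.2 ⟨y, hy, (Set.Finite.mem_toFinset _).2 hu⟩)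
  have := add_mem (h q (Finset.notMem_empty q)) hyq
  rw [← map_add] at this
  rwa [show x - principal a = x - y - principal a + y by abel]

end FLTAgent.Global
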