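import Fermat.Agent.Global.Cochain

/-!
More lemmas about sums over cosets.
-/

set_option autoImplicit false
set_option linter.unusedSectionVars false

noncomputable section

namespace FLTAgent.Global

variable {Γ : Type*} [Group Γ] {H N : Subgroup Γ}

section monoid

variable {A : Type*} [AddCommMonoid A]

lemma csum_comm (hN : Lvl H N) {H' N' : Subgroup Γ} (hN' : Lvl H' N') (F : Γ → Γ → A) :
    csum H N (fun g => csum H' N' (fun h => F g h))
      = csum H' N' (fun h => csum H N (fun g => F g h)) := by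
  have := hN.fin; have := hN'.fin
  have := Fintype.ofFinite (↥H ⧸ N.subgroupOf H)
  have := Fintype.ofFinite (↥H' ⧸ N'.subgroupOf H')
  simp only [csum_eq_sum]
  exact Finset.sum_comm

lemma csum_const (hN : Lvl H N) (a : A) : csum H N (fun _ => a) = N.relIndex H • a := by
  have := hN.fin
  have := Fintype.ofFinite (↥H ⧸ N.subgroupOf H)
  simp [csum_eq_sum, Subgroup.relIndex, Subgroup.index_eq_card, Nat.card_eq_fintype_card]

lemma csum_zero (H N : Subgroup Γ) : csum H N (fun _ => (0 : A)) = 0 := by simp [csum]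

lemma Lvl.mk_eq (hN : Lvl H N) {a b : H} (h : (a : ↥H ⧸ N.subgroupOf H) = b) :
    (a : Γ)⁻¹ * b ∈ N := by
  rw [QuotientGroup.eq, Subgroup.mem_subgroupOf] at h
  simpa using h

/-- inversion on `H/N` -/
def invEquiv (hN : Lvl H N) : (↥H ⧸ N.subgroupOf H) ≃ (↥H ⧸ N.subgroupOf H) :=
  have key : ∀ a : H, ((((a : ↥H ⧸ N.subgroupOf H).out)⁻¹ : H) : ↥H ⧸ N.subgroupOf H) = (a⁻¹ : H) := by
    intro a
    rw [QuotientGroup.eq, Subgroup.mem_subgroupOf]
    set o := (a : ↥H ⧸ N.subgroupOf H).out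
    have h : (o : Γ)⁻¹ * a ∈ N := hN.mk_eq (QuotientGroup.out_eq' _)
    have h2 := hN.conj _ (H.inv_mem a.2) _ (N.inv_mem (N.inv_mem (N.inv_mem h)))
    simpa [mul_assoc] using h2
  { toFun := fun q => ((q.out⁻¹ : H) : ↥H ⧸ N.subgroupOf H)
    invFun := fun q => ((q.out⁻¹ : H) : ↥H ⧸ N.subgroupOf H)
    left_inv := fun q => by simp only [key, inv_inv, QuotientGroup.out_eq']
    right_inv := fun q => by simp only [key, inv_inv, QuotientGroup.out_eq'] }

lemma csum_inv (hN : Lvl H N) {F : Γ → A} (hF : ∀ g ∈ H, ∀ s ∈ N, F (g * s) = F g) :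
    csum H N (fun g => F g⁻¹) = csum H N F := by
  unfold csum
  rw [← finsum_comp_equiv (invEquiv hN) (f := fun q => F (rep H N q))]
  refine finsum_congr fun q => ?_
  have e : (q.out⁻¹ : H).1⁻¹ * ((invEquiv hN q).out : Γ) ∈ N :=
    hN.mk_eq (QuotientGroup.out_eq' _).symm
  have := hF ((q.out⁻¹ : H) : Γ) (q.out⁻¹ : H).2 _ e
  simpa [rep] using this.symm

lemma csum_mul_right (hN : Lvl H N) {F : Γ → A} (hF : ∀ g ∈ H, ∀ s ∈ N, F (g * s) = F g)
    {k : Γ} (hk : k ∈ H) : csum H N (fun g => F (g * k)) = csum H N F := by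
  have h1 : ∀ g ∈ H, ∀ s ∈ N, F ((g * s)⁻¹) = F g⁻¹ := by
    intro g hg s hs
    have := hF g⁻¹ (H.inv_mem hg) _ (hN.conj _ (H.inv_mem hg) _ (N.inv_mem hs))
    simpa [mul_assoc] using this
  have h2 : ∀ g ∈ H, ∀ s ∈ N, F ((g * s) * k) = F (g * k) := by
    intro g hg s hs
    have := hF (g * k) (mul_mem hg hk) _ (hN.conj k hk s hs)
    simpa [mul_assoc] using this
  rw [← csum_inv hN h2, ← csum_inv hN hF]
  rw [← csum_mul_left (F := fun g => F g⁻¹) h1 (H.inv_mem hk)]
  simp [mul_inv_rev]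

/-- `H/P × P/N → H/N` -/
def towerMap {P : Subgroup Γ} (hP : P ≤ H)
    (x : (↥H ⧸ P.subgroupOf H) × (↥P ⧸ N.subgroupOf P)) : ↥H ⧸ N.subgroupOf H :=
  QuotientGroup.mk ⟨rep H P x.1 * rep P N x.2, mul_mem (rep_mem H P _) (hP (rep_mem P N _))⟩

lemma towerMap_bijective {P : Subgroup Γ} (hP : P ≤ H) (hNP : N ≤ P) :
    Function.Bijective (towerMap (H := H) (N := N) hP) := by
  refine ⟨?_, fun q => ?_⟩
  · rintro ⟨q, r⟩ ⟨q', r'⟩ h
    simp only [towerMap, QuotientGroup.eq, Subgroup.mem_subgroupOf] at h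
    simp only [Subgroup.coe_mul, Subgroup.coe_inv, mul_inv_rev, mul_assoc] at h
    have hq : q = q' := by
      rw [← QuotientGroup.out_eq' q, ← QuotientGroup.out_eq' q', QuotientGroup.eq,
        Subgroup.mem_subgroupOf]
      have := P.mul_mem (P.mul_mem (rep_mem P N r) (hNP h)) (P.inv_mem (rep_mem P N r'))
      simpa [rep, mul_assoc] using this
    subst hq
    refine Prod.ext rfl ?_
    rw [← QuotientGroup.out_eq' r, ← QuotientGroup.out_eq' r', QuotientGroup.eq,
      Subgroup.mem_subgroupOf]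
    simpa [rep] using h
  · set x : ↥H ⧸ P.subgroupOf H := QuotientGroup.mk q.out with hx
    have h1 : (rep H P x)⁻¹ * rep H N q ∈ P := by
      have := QuotientGroup.out_eq' x
      rw [hx, QuotientGroup.eq, Subgroup.mem_subgroupOf] at this
      simpa [rep] using this
    refine ⟨(x, QuotientGroup.mk ⟨_, h1⟩), ?_⟩
    have := QuotientGroup.out_eq' (QuotientGroup.mk ⟨_, h1⟩ : ↥P ⧸ N.subgroupOf P)
    rw [QuotientGroup.eq, Subgroup.mem_subgroupOf] at this
    conv_rhs => rw [← QuotientGroup.out_eq' q]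
    rw [towerMap, QuotientGroup.eq, Subgroup.mem_subgroupOf]
    simpa [rep, mul_assoc] using this

lemma csum_tower (hN : Lvl H N) {P : Subgroup Γ} (hP : P ≤ H) (hNP : N ≤ P) {F : Γ → A}
    (hF : ∀ g ∈ H, ∀ s ∈ N, F (g * s) = F g) :
    csum H P (fun t => csum P N (fun r => F (t * r))) = csum H N F := by
  have := hN.fin
  have hf : Finite ((↥H ⧸ P.subgroupOf H) × (↥P ⧸ N.subgroupOf P)) :=
    Finite.of_injective _ (towerMap_bijective (N := N) hP hNP).1
  unfold csum
  rw [← finsum_comp_equiv (Equiv.ofBijective _ (towerMap_bijective (N := N) hP hNP))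
    (f := fun q => F (rep H N q))]
  rw [finsum_curry _ (Set.toFinite _)]
  refine finsum_congr fun q => finsum_congr fun r => ?_
  set z := Equiv.ofBijective _ (towerMap_bijective (N := N) hP hNP) (q, r) with hz
  have e := hN.mk_eq (QuotientGroup.out_eq' z)
  have := hF (rep H N z) (rep_mem H N z) _ e
  simpa [rep] using this

lemma Lvl.sub_left (hN : Lvl H N) {P : Subgroup Γ} (hP : P ≤ H) (hNP : N ≤ P) : Lvl P N :=
  ⟨hNP, fun g hg => hN.conj g (hP hg),
    have := hN.fin
    have : Finite ((↥H ⧸ P.subgroupOf H) × (↥P ⧸ N.subgroupOf P)) :=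
      Finite.of_injective _ (towerMap_bijective (N := N) hP hNP).1
    Finite.of_injective (fun r => ((QuotientGroup.mk (1 : H) : ↥H ⧸ P.subgroupOf H), r))
      fun r r' h => (Prod.ext_iff.1 h).2⟩

lemma Lvl.fin_quot (hN : Lvl H N) {P : Subgroup Γ} (hP : P ≤ H) (hNP : N ≤ P) :
    Finite (↥H ⧸ P.subgroupOf H) :=
  have := hN.fin
  have : Finite ((↥H ⧸ P.subgroupOf H) × (↥P ⧸ N.subgroupOf P)) :=
    Finite.of_injective _ (towerMap_bijective (N := N) hP hNP).1
  Finite.of_injective (fun q => (q, (QuotientGroup.mk (1 : P) : ↥P ⧸ N.subgroupOf P)))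
    fun r r' h => (Prod.ext_iff.1 h).1

lemma csum_comm' (hN : Lvl H N) {P : Subgroup Γ} (hP : P ≤ H) (hNP : N ≤ P) (F : Γ → Γ → A) :
    csum H P (fun g => csum P N (fun h => F g h)) = csum P N (fun h => csum H P (fun g => F g h)) := by
  have := hN.fin_quot hP hNP
  have := (hN.sub_left hP hNP).fin
  have := Fintype.ofFinite (↥H ⧸ P.subgroupOf H)
  have := Fintype.ofFinite (↥P ⧸ N.subgroupOf P)
  simp only [csum_eq_sum]
  exact Finset.sum_comm

end monoid

section group

variable {A : Type*} [AddCommGroup A]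

lemma csum_sub (hN : Lvl H N) (F G : Γ → A) :
    csum H N (fun g => F g - G g) = csum H N F - csum H N G := by
  rw [eq_sub_iff_add_eq, ← csum_add H N hN.fin]
  exact csum_congr H N fun g _ => sub_add_cancel _ _

lemma csum_neg (hN : Lvl H N) (F : Γ → A) : csum H N (fun g => -F g) = -csum H N F := by
  simpa [csum_zero] using csum_sub hN (fun _ => (0 : A)) F

lemma zsmul_csum (hN : Lvl H N) (n : ℤ) (F : Γ → A) :
    n • csum H N F = csum H N (fun g => n • F g) :=
  map_csum H N hN.fin (zsmulAddGroupHom n) F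

lemma csum_zsmul (hN : Lvl H N) (F : Γ → ℤ) (a : A) :
    csum H N (fun g => F g • a) = csum H N F • a :=
  (map_csum H N hN.fin ((zmultiplesHom A) a) F).symm

lemma smul_csum [DistribMulAction Γ A] (hN : Lvl H N) (g : Γ) (F : Γ → A) :
    g • csum H N F = csum H N (fun h => g • F h) :=
  map_csum H N hN.fin (DistribSMul.toAddMonoidHom A g) F

end group

end FLTAgent.Global
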