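import Fermat.Agent.Global.Defs
import Fermat.Agent.Ext.Herbrand

/-!
Herbrand quotients: multiplicativity, finite modules, and Chevalley's rank formula for finitely
generated modules over a cyclic group of prime order.
-/

set_option autoImplicit false
set_option linter.unusedSectionVars false

open Module

namespace FLTAgent.Global

lemma card_eq_ker_mul_range {X Y : Type*} [AddCommGroup X] [AddCommGroup Y] (φ : X →+ Y) :
    Nat.card X = Nat.card φ.ker * Nat.card φ.range := by
  rw [← AddSubgroup.card_mul_index φ.ker, AddSubgroup.index_ker]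

section hexagon

variable {A B C : Type*} [AddCommGroup A] [AddCommGroup B] [AddCommGroup C]

/-- The map induced on `ker f / im g`. -/
def tateMap {f g : A →+ A} {f' g' : B →+ B} (φ : A →+ B) (hf : ∀ x, φ (f x) = f' (φ x))
    (hg : ∀ x, φ (g x) = g' (φ x)) : TateQuot f g →+ TateQuot f' g' :=
  QuotientAddGroup.map (g.range.addSubgroupOf f.ker) (g'.range.addSubgroupOf f'.ker)
    ((φ.comp f.ker.subtype).codRestrict f'.ker fun x => by
      rw [AddMonoidHom.mem_ker, AddMonoidHom.comp_apply, AddSubgroup.subtype_apply, ← hf, x.2,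
        map_zero])
    (by
      rintro x ⟨y, hy⟩
      exact ⟨φ y, by rw [← hg, hy]; rfl⟩)

lemma tateMap_mk {f g : A →+ A} {f' g' : B →+ B} (φ : A →+ B) (hf : ∀ x, φ (f x) = f' (φ x))
    (hg : ∀ x, φ (g x) = g' (φ x)) (x : f.ker) :
    tateMap φ hf hg (QuotientAddGroup.mk x) = QuotientAddGroup.mk (⟨φ x, by
      rw [AddMonoidHom.mem_ker, ← hf, x.2, map_zero]⟩ : f'.ker) := rfl

/-- A short exact sequence of modules with two endomorphisms killing each other. -/
structure TateSeq (fA gA : A →+ A) (fB gB : B →+ B) (fC gC : C →+ C) (i : A →+ B) (j : B →+ C) :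
    Prop where
  inj : Function.Injective i
  surj : Function.Surjective j
  exact : Function.Exact i j
  fi : ∀ a, i (fA a) = fB (i a)
  gi : ∀ a, i (gA a) = gB (i a)
  fj : ∀ b, j (fB b) = fC (j b)
  gj : ∀ b, j (gB b) = gC (j b)
  fg : ∀ b, fB (gB b) = 0
  gf : ∀ b, gB (fB b) = 0

variable {fA gA : A →+ A} {fB gB : B →+ B} {fC gC : C →+ C} {i : A →+ B} {j : B →+ C}

lemma TateSeq.symm (S : TateSeq fA gA fB gB fC gC i j) : TateSeq gA fA gB fB gC fC i j where
  inj := S.inj
  surj := S.surj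
  exact := S.exact
  fi := S.gi
  gi := S.fi
  fj := S.gj
  gj := S.fj
  fg := S.gf
  gf := S.fg

namespace TateSeq

variable (S : TateSeq fA gA fB gB fC gC i j)

include S

lemma exists_connect (c : fC.ker) : ∃ a : gA.ker, ∃ b : B, j b = c ∧ fB b = i a := by
  obtain ⟨b, hb⟩ := S.surj c.1
  obtain ⟨a, ha⟩ := (S.exact (fB b)).1 (by rw [S.fj, hb]; exact c.2)
  exact ⟨⟨a, S.inj (by rw [S.gi, ha, S.gf, map_zero])⟩, b, hb, ha.symm⟩

lemma mk_connect_eq {c : C} {a a' : gA.ker} {b b' : B} (hb : j b = c) (ha : fB b = i a)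
    (hb' : j b' = c) (ha' : fB b' = i a') :
    (QuotientAddGroup.mk a : TateQuot gA fA) = QuotientAddGroup.mk a' := by
  rw [QuotientAddGroup.eq]
  obtain ⟨x, hx⟩ := (S.exact (b' - b)).1 (by rw [map_sub, hb', hb, sub_self])
  refine ⟨x, S.inj ?_⟩
  rw [S.fi, hx, map_sub, ha', ha]
  simp [sub_eq_neg_add]

/-- The connecting homomorphism. -/
noncomputable def connect : TateQuot fC gC →+ TateQuot gA fA :=
  QuotientAddGroup.lift (gC.range.addSubgroupOf fC.ker)
    (AddMonoidHom.mk'
      (fun c => QuotientAddGroup.mk (S.exists_connect c).choose)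
      fun c c' => by
        obtain ⟨b, hb, ha⟩ := (S.exists_connect c).choose_spec
        obtain ⟨b', hb', ha'⟩ := (S.exists_connect c').choose_spec
        obtain ⟨b'', hb'', ha''⟩ := (S.exists_connect (c + c')).choose_spec
        rw [← QuotientAddGroup.mk_add]
        exact S.mk_connect_eq hb'' ha'' (b' := b + b') (by simp [hb, hb']) (by simp [ha, ha']))
    (by
      rintro c ⟨c₀, hc⟩
      obtain ⟨b, hb, ha⟩ := (S.exists_connect c).choose_spec
      obtain ⟨b₀, rfl⟩ := S.surj c₀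
      rw [AddMonoidHom.mem_ker, AddMonoidHom.mk'_apply, QuotientAddGroup.eq_zero_iff]
      obtain ⟨x, hx⟩ := (S.exact (b - gB b₀)).1 (by
        rw [map_sub, hb, S.gj, hc, AddSubgroup.subtype_apply, sub_self])
      refine ⟨x, S.inj ?_⟩
      rw [S.fi, hx, map_sub, ha, S.fg, sub_zero]
      rfl)

lemma connect_mk {c : fC.ker} {b : B} {a : gA.ker} (hb : j b = c) (ha : fB b = i a) :
    S.connect (QuotientAddGroup.mk c) = QuotientAddGroup.mk a := by
  obtain ⟨b', hb', ha'⟩ := (S.exists_connect c).choose_spec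
  exact S.mk_connect_eq hb' ha' hb ha

/-- The map induced by `i`. -/
def mapI : TateQuot fA gA →+ TateQuot fB gB := tateMap i S.fi S.gi

/-- The map induced by `j`. -/
def mapJ : TateQuot fB gB →+ TateQuot fC gC := tateMap j S.fj S.gj

lemma exact_B : S.mapI.range = S.mapJ.ker := by
  ext y
  obtain ⟨b, rfl⟩ := QuotientAddGroup.mk_surjective y
  rw [AddMonoidHom.mem_ker, mapJ, tateMap_mk, QuotientAddGroup.eq_zero_iff]
  constructor
  · rintro ⟨x, hx⟩
    obtain ⟨a, rfl⟩ := QuotientAddGroup.mk_surjective x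
    rw [mapI, tateMap_mk, QuotientAddGroup.eq] at hx
    obtain ⟨y, hy⟩ := hx
    refine ⟨j y, ?_⟩
    rw [← S.gj, hy]
    simp [S.exact.apply_apply_eq_zero]
  · rintro ⟨c, hc⟩
    obtain ⟨y, rfl⟩ := S.surj c
    obtain ⟨x, hx⟩ := (S.exact (b.1 - gB y)).1 (by rw [map_sub, S.gj, hc]; simp)
    refine ⟨QuotientAddGroup.mk (⟨x, S.inj ?_⟩ : fA.ker), ?_⟩
    · rw [S.fi, hx, map_sub, b.2, S.fg, sub_zero, map_zero]
    · rw [mapI, tateMap_mk, QuotientAddGroup.eq]
      exact ⟨y, by simp [hx]⟩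

lemma exact_C : S.mapJ.range = S.connect.ker := by
  ext y
  obtain ⟨c, rfl⟩ := QuotientAddGroup.mk_surjective y
  rw [AddMonoidHom.mem_ker]
  constructor
  · rintro ⟨x, hx⟩
    obtain ⟨b, rfl⟩ := QuotientAddGroup.mk_surjective x
    rw [← hx, mapJ, tateMap_mk, S.connect_mk (b := b.1) (a := 0) rfl (by rw [AddMonoidHom.mem_ker.1 b.2]; simp)]
    rfl
  · intro h
    obtain ⟨a, b, hb, ha⟩ := S.exists_connect c
    rw [S.connect_mk hb ha, QuotientAddGroup.eq_zero_iff] at h
    obtain ⟨x, hx⟩ := h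
    refine ⟨QuotientAddGroup.mk (⟨b - i x, ?_⟩ : fB.ker), ?_⟩
    · rw [AddMonoidHom.mem_ker, map_sub, ha, ← S.fi, hx, AddSubgroup.subtype_apply, sub_self]
    · rw [mapJ, tateMap_mk]
      congr 1
      exact Subtype.ext (by simp [hb, S.exact.apply_apply_eq_zero])

lemma exact_A : S.connect.range = S.symm.mapI.ker := by
  ext y
  obtain ⟨a, rfl⟩ := QuotientAddGroup.mk_surjective y
  rw [AddMonoidHom.mem_ker, mapI, tateMap_mk, QuotientAddGroup.eq_zero_iff]
  constructor
  · rintro ⟨x, hx⟩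
    obtain ⟨c, rfl⟩ := QuotientAddGroup.mk_surjective x
    obtain ⟨a', b, hb, ha⟩ := S.exists_connect c
    rw [S.connect_mk hb ha, QuotientAddGroup.eq] at hx
    obtain ⟨x, hx⟩ := hx
    refine ⟨b + i x, ?_⟩
    rw [map_add, ha, ← S.fi, hx]
    simp
  · rintro ⟨b, hb⟩
    refine ⟨QuotientAddGroup.mk (⟨j b, ?_⟩ : fC.ker), S.connect_mk rfl hb⟩
    rw [AddMonoidHom.mem_ker, ← S.fj, hb]
    simp [S.exact.apply_apply_eq_zero]

lemma finite_and_card [Finite (TateQuot fA gA)] [Finite (TateQuot gA fA)]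
    [Finite (TateQuot fB gB)] [Finite (TateQuot gB fB)] :
    Finite (TateQuot fC gC) ∧ Finite (TateQuot gC fC) ∧
      Nat.card (TateQuot fA gA) * Nat.card (TateQuot fC gC) * Nat.card (TateQuot gB fB)
        = Nat.card (TateQuot gA fA) * Nat.card (TateQuot gC fC) * Nat.card (TateQuot fB gB) := by
  have hC : Finite (TateQuot fC gC) := S.connect.finite_iff_finite_ker_range.2
    ⟨S.exact_C ▸ (inferInstanceAs (Finite (Set.range S.mapJ))), inferInstance⟩
  have hC' : Finite (TateQuot gC fC) := S.symm.connect.finite_iff_finite_ker_range.2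
    ⟨S.symm.exact_C ▸ (inferInstanceAs (Finite (Set.range S.symm.mapJ))), inferInstance⟩
  refine ⟨hC, hC', ?_⟩
  have r1 : Nat.card (TateQuot fA gA) = _ := card_eq_ker_mul_range S.mapI
  have r2 : Nat.card (TateQuot fB gB) = _ := card_eq_ker_mul_range S.mapJ
  have r3 : Nat.card (TateQuot fC gC) = _ := card_eq_ker_mul_range S.connect
  have r4 : Nat.card (TateQuot gA fA) = _ := card_eq_ker_mul_range S.symm.mapI
  have r5 : Nat.card (TateQuot gB fB) = _ := card_eq_ker_mul_range S.symm.mapJ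
  have r6 : Nat.card (TateQuot gC fC) = _ := card_eq_ker_mul_range S.symm.connect
  rw [r1, r2, r3, r4, r5, r6, ← S.exact_B, ← S.exact_C, ← S.exact_A, ← S.symm.exact_B,
    ← S.symm.exact_C, ← S.symm.exact_A]
  ring

end TateSeq

end hexagon

section api

variable {A B C : Type*} [AddCommGroup A] [AddCommGroup B] [AddCommGroup C]

lemma sigmaSub_apply (σ : A →+ A) (x : A) : sigmaSub σ x = σ x - x := rfl

lemma sigmaNorm_apply (σ : A →+ A) (p : ℕ) (x : A) :
    sigmaNorm σ p x = ∑ i ∈ Finset.range p, (⇑σ)^[i] x := rfl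

lemma sigmaSub_sigmaNorm {p : ℕ} {σ : A →+ A} (h : ∀ x, (⇑σ)^[p] x = x) (x : A) :
    sigmaSub σ (sigmaNorm σ p x) = 0 := by
  rw [sigmaSub_apply, sigmaNorm_apply, map_sum, sub_eq_zero]
  simp only [← Function.iterate_succ_apply']
  have e := Finset.sum_range_succ' (fun i => (⇑σ)^[i] x) p
  rw [Finset.sum_range_succ, h] at e
  simp only [Function.iterate_zero_apply] at e
  exact (add_right_cancel e).symm

lemma sigmaNorm_sigmaSub {p : ℕ} {σ : A →+ A} (h : ∀ x, (⇑σ)^[p] x = x) (x : A) :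
    sigmaNorm σ p (sigmaSub σ x) = 0 := by
  rw [sigmaSub_apply, map_sub, sigmaNorm_apply, sigmaNorm_apply]
  simp only [← Function.iterate_succ_apply]
  have e := Finset.sum_range_succ' (fun i => (⇑σ)^[i] x) p
  rw [Finset.sum_range_succ, h] at e
  simp only [Function.iterate_zero_apply] at e
  rw [← add_right_cancel e, sub_self]

lemma sigmaNorm_of_fixed {p : ℕ} {σ : A →+ A} {x : A} (hx : σ x = x) :
    sigmaNorm σ p x = p • x := by
  simp [sigmaNorm_apply, fun i => Function.iterate_fixed (f := ⇑σ) hx i]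

lemma map_sigmaSub {σA : A →+ A} {σB : B →+ B} {i : A →+ B} (c : ∀ a, i (σA a) = σB (i a)) (a : A) :
    i (sigmaSub σA a) = sigmaSub σB (i a) := by
  rw [sigmaSub_apply, sigmaSub_apply, map_sub, c]

lemma map_sigmaNorm {σA : A →+ A} {σB : B →+ B} {i : A →+ B} (c : ∀ a, i (σA a) = σB (i a))
    (p : ℕ) (a : A) : i (sigmaNorm σA p a) = sigmaNorm σB p (i a) := by
  rw [sigmaNorm_apply, sigmaNorm_apply, map_sum]
  exact Finset.sum_congr rfl fun n _ => (Function.Semiconj.iterate_right c n a)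

lemma hasHerbrand_iff {f g : A →+ A} {num den : ℕ} (hden : den ≠ 0) :
    HasHerbrand f g num den ↔ Finite (TateQuot f g) ∧ Finite (TateQuot g f) ∧
      num * Nat.card (TateQuot g f) = den * Nat.card (TateQuot f g) := by
  unfold HasHerbrand
  refine and_congr_right fun h1 => and_congr_right fun h2 => ?_
  have h2' : (Nat.card (TateQuot g f) : ℚ) ≠ 0 := by
    have := h2; exact_mod_cast Nat.card_pos.ne'
  have hd : (den : ℚ) ≠ 0 := by exact_mod_cast hden
  constructor
  · rintro ⟨k, rfl, hk⟩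
    rw [div_eq_div_iff hd h2'] at hk
    rw [mul_comm den]
    exact_mod_cast hk
  · intro h
    refine ⟨_, rfl, ?_⟩
    rw [div_eq_div_iff hd h2']
    rw [mul_comm den] at h
    exact_mod_cast h

lemma HasHerbrand.num_ne_zero {f g : A →+ A} {num den : ℕ} (hden : den ≠ 0)
    (h : HasHerbrand f g num den) : num ≠ 0 := by
  obtain ⟨h1, h2, h3⟩ := (hasHerbrand_iff hden).1 h
  intro h0
  rw [h0, zero_mul] at h3
  exact (Nat.mul_pos (Nat.pos_of_ne_zero hden) Nat.card_pos).ne h3

/-- multiplicativity -/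
theorem hasHerbrand_of_exact {p : ℕ} (σA : A →+ A) (σB : B →+ B) (σC : C →+ C)
    (_hA : ∀ a, σA^[p] a = a) (hB : ∀ b, σB^[p] b = b) (_hC : ∀ c, σC^[p] c = c)
    (i : A →+ B) (j : B →+ C) (hi : Function.Injective i) (hj : Function.Surjective j)
    (hex : Function.Exact i j) (ci : ∀ a, i (σA a) = σB (i a)) (cj : ∀ b, j (σB b) = σC (j b))
    {a a' b b' : ℕ} (ha : HasHerbrand (sigmaSub σA) (sigmaNorm σA p) a a')
    (hb : HasHerbrand (sigmaSub σB) (sigmaNorm σB p) b b') :
    HasHerbrand (sigmaSub σC) (sigmaNorm σC p) (b * a') (b' * a) := by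
  have S : TateSeq (sigmaSub σA) (sigmaNorm σA p) (sigmaSub σB) (sigmaNorm σB p) (sigmaSub σC)
      (sigmaNorm σC p) i j :=
    ⟨hi, hj, hex, map_sigmaSub ci, map_sigmaNorm ci p, map_sigmaSub cj, map_sigmaNorm cj p,
      sigmaSub_sigmaNorm hB, sigmaNorm_sigmaSub hB⟩
  obtain ⟨A1, A2, k, hk, hk'⟩ := ha
  obtain ⟨B1, B2, l, hl, hl'⟩ := hb
  obtain ⟨C1, C2, hcard⟩ := S.finite_and_card
  refine ⟨C1, C2, _, rfl, ?_⟩
  have hcardQ := congrArg (Nat.cast : ℕ → ℚ) hcard
  push_cast at hcardQ ⊢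
  have n1 : (Nat.card (TateQuot (sigmaNorm σA p) (sigmaSub σA)) : ℚ) ≠ 0 := by
    exact_mod_cast Nat.card_pos.ne'
  have n2 : (Nat.card (TateQuot (sigmaSub σA) (sigmaNorm σA p)) : ℚ) ≠ 0 := by
    exact_mod_cast Nat.card_pos.ne'
  have n3 : (Nat.card (TateQuot (sigmaNorm σB p) (sigmaSub σB)) : ℚ) ≠ 0 := by
    exact_mod_cast Nat.card_pos.ne'
  have n4 : (Nat.card (TateQuot (sigmaNorm σC p) (sigmaSub σC)) : ℚ) ≠ 0 := by
    exact_mod_cast Nat.card_pos.ne'
  rw [show ((b : ℚ) * a') / (b' * a) = (b / b') / (a / a') by rw [div_div_div_eq], ← hl, ← hk,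
    hl', hk', div_div_div_eq, div_eq_div_iff (mul_ne_zero n3 n2) n4]
  linear_combination -hcardQ

/-- multiplicativity, solved for the middle term -/
theorem hasHerbrand_of_exact_mid {p : ℕ} (σA : A →+ A) (σB : B →+ B) (σC : C →+ C)
    (hB : ∀ b, σB^[p] b = b) (i : A →+ B) (j : B →+ C) (hi : Function.Injective i)
    (hj : Function.Surjective j) (hex : Function.Exact i j) (ci : ∀ a, i (σA a) = σB (i a))
    (cj : ∀ b, j (σB b) = σC (j b))
    {a a' c c' : ℕ} (ha : HasHerbrand (sigmaSub σA) (sigmaNorm σA p) a a')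
    (hc : HasHerbrand (sigmaSub σC) (sigmaNorm σC p) c c') :
    HasHerbrand (sigmaSub σB) (sigmaNorm σB p) (a * c) (a' * c') := by
  have S : TateSeq (sigmaSub σA) (sigmaNorm σA p) (sigmaSub σB) (sigmaNorm σB p) (sigmaSub σC)
      (sigmaNorm σC p) i j :=
    ⟨hi, hj, hex, map_sigmaSub ci, map_sigmaNorm ci p, map_sigmaSub cj, map_sigmaNorm cj p,
      sigmaSub_sigmaNorm hB, sigmaNorm_sigmaSub hB⟩
  obtain ⟨A1, A2, k, hk, hk'⟩ := ha
  obtain ⟨C1, C2, l, hl, hl'⟩ := hc
  have B1 : Finite (TateQuot (sigmaSub σB) (sigmaNorm σB p)) :=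
    S.mapJ.finite_iff_finite_ker_range.2
      ⟨S.exact_B ▸ (inferInstanceAs (Finite (Set.range S.mapI))), inferInstance⟩
  have B2 : Finite (TateQuot (sigmaNorm σB p) (sigmaSub σB)) :=
    S.symm.mapJ.finite_iff_finite_ker_range.2
      ⟨S.symm.exact_B ▸ (inferInstanceAs (Finite (Set.range S.symm.mapI))), inferInstance⟩
  obtain ⟨-, -, hcard⟩ := S.finite_and_card
  refine ⟨B1, B2, _, rfl, ?_⟩
  have hcardQ := congrArg (Nat.cast : ℕ → ℚ) hcard
  push_cast at hcardQ ⊢
  have n1 : (Nat.card (TateQuot (sigmaNorm σA p) (sigmaSub σA)) : ℚ) ≠ 0 := by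
    exact_mod_cast Nat.card_pos.ne'
  have n3 : (Nat.card (TateQuot (sigmaNorm σB p) (sigmaSub σB)) : ℚ) ≠ 0 := by
    exact_mod_cast Nat.card_pos.ne'
  have n4 : (Nat.card (TateQuot (sigmaNorm σC p) (sigmaSub σC)) : ℚ) ≠ 0 := by
    exact_mod_cast Nat.card_pos.ne'
  rw [show ((a : ℚ) * c) / (a' * c') = (a / a') * (c / c') by rw [div_mul_div_comm], ← hl, ← hk,
    hl', hk', div_mul_div_comm, div_eq_div_iff (mul_ne_zero n1 n4) n3]
  linear_combination hcardQ

lemma card_tateQuot {f g : A →+ A} :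
    Nat.card (TateQuot f g) = g.range.relIndex f.ker := rfl

theorem hasHerbrand_of_finite [Finite A] {p : ℕ} (σ : A →+ A) (h : ∀ a, σ^[p] a = a) :
    HasHerbrand (sigmaSub σ) (sigmaNorm σ p) 1 1 := by
  rw [hasHerbrand_iff one_ne_zero, one_mul, one_mul]
  refine ⟨inferInstance, inferInstance, ?_⟩
  set f := sigmaSub σ
  set g := sigmaNorm σ p
  have e1 : Nat.card (TateQuot f g) * Nat.card g.range = Nat.card f.ker := by
    have := AddSubgroup.card_mul_index (g.range.addSubgroupOf f.ker)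
    rw [mul_comm, ← AddSubgroup.relIndex] at this
    rw [card_tateQuot, ← this]
    congr 1
    exact (Nat.card_congr (AddSubgroup.addSubgroupOfEquivOfLe (show g.range ≤ f.ker by
      rintro _ ⟨y, rfl⟩; exact sigmaSub_sigmaNorm h y)).toEquiv).symm
  have e2 : Nat.card (TateQuot g f) * Nat.card f.range = Nat.card g.ker := by
    have := AddSubgroup.card_mul_index (f.range.addSubgroupOf g.ker)
    rw [mul_comm, ← AddSubgroup.relIndex] at this
    rw [card_tateQuot, ← this]
    congr 1
    exact (Nat.card_congr (AddSubgroup.addSubgroupOfEquivOfLe (show f.range ≤ g.ker by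
      rintro _ ⟨y, rfl⟩; exact sigmaNorm_sigmaSub h y)).toEquiv).symm
  refine Nat.eq_of_mul_eq_mul_right (Nat.mul_pos (Nat.card_pos (α := g.range))
    (Nat.card_pos (α := f.range))) ?_
  calc Nat.card (TateQuot g f) * (Nat.card g.range * Nat.card f.range)
      = Nat.card g.range * (Nat.card (TateQuot g f) * Nat.card f.range) := by ring
    _ = Nat.card g.range * Nat.card g.ker := by rw [e2]
    _ = Nat.card A := by rw [mul_comm, ← card_eq_ker_mul_range]
    _ = Nat.card f.ker * Nat.card f.range := card_eq_ker_mul_range f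
    _ = Nat.card (TateQuot f g) * (Nat.card g.range * Nat.card f.range) := by rw [← e1]; ring

end api

section rank

variable {A : Type*} [AddCommGroup A]

/-- `[A : f g A] #ker f #ker g = [A : f A] [A : g A] #ker (f g)`. -/
lemma index_range_comp (f g : A →+ A) :
    (f.comp g).range.index * (Nat.card f.ker * Nat.card g.ker)
      = f.range.index * g.range.index * Nat.card (f.comp g).ker := by
  have h1 : (g.range.map f).relIndex f.range * f.range.index = (f.comp g).range.index := by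
    rw [AddMonoidHom.range_comp]
    exact AddSubgroup.relIndex_mul_index (fun _ ⟨x, _, hx⟩ => ⟨x, hx⟩)
  have h2 : (g.range.map f).relIndex f.range = (g.range ⊔ f.ker).index := by
    rw [show f.range = AddSubgroup.map f ⊤ from AddMonoidHom.range_eq_map f,
      AddSubgroup.relIndex_map_map, top_sup_eq, AddSubgroup.relIndex_top_right]
  have h3 : g.range.relIndex (g.range ⊔ f.ker) * (g.range ⊔ f.ker).index = g.range.index :=
    AddSubgroup.relIndex_mul_index le_sup_left
  have h4 : g.range.relIndex f.ker * Nat.card ↥(g.range ⊓ f.ker) = Nat.card f.ker := by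
    rw [← AddSubgroup.inf_relIndex_right, mul_comm, AddSubgroup.relIndex,
      ← Nat.card_congr (AddSubgroup.addSubgroupOfEquivOfLe
        (inf_le_right : g.range ⊓ f.ker ≤ f.ker)).toEquiv]
    exact AddSubgroup.card_mul_index _
  have h5 : Nat.card (f.comp g).ker = Nat.card g.ker * Nat.card ↥(g.range ⊓ f.ker) := by
    let φ : (f.comp g).ker →+ A := g.comp (f.comp g).ker.subtype
    have hr : φ.range = g.range ⊓ f.ker := by
      ext y
      constructor
      · rintro ⟨⟨x, hx⟩, rfl⟩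
        exact ⟨⟨x, rfl⟩, hx⟩
      · rintro ⟨⟨x, rfl⟩, hy⟩
        exact ⟨⟨x, hy⟩, rfl⟩
    have hk : Nat.card φ.ker = Nat.card g.ker :=
      Nat.card_congr
        { toFun := fun x => ⟨x.1.1, x.2⟩
          invFun := fun x => ⟨⟨x.1, by
            rw [AddMonoidHom.mem_ker, AddMonoidHom.comp_apply, x.2, map_zero]⟩, x.2⟩
          left_inv := fun x => rfl
          right_inv := fun x => rfl }
    rw [card_eq_ker_mul_range φ, hk, hr]
  rw [AddSubgroup.relIndex_sup_left] at h3
  rw [← h1, h2, ← h4, h5, ← h3]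
  ring

/-- `[X : Y] = [f X : f Y] [X ∩ ker f : Y ∩ ker f]`. -/
lemma relIndex_map_mul {B : Type*} [AddCommGroup B] (f : A →+ B) {Y X : AddSubgroup A}
    (h : Y ≤ X) :
    Y.relIndex X = (Y.map f).relIndex (X.map f) * Y.relIndex (X ⊓ f.ker) := by
  rw [AddSubgroup.relIndex_map_map]
  have e1 : (Y ⊔ f.ker).relIndex (X ⊔ f.ker) = (Y ⊔ (X ⊓ f.ker)).relIndex X := by
    rw [show X ⊔ f.ker = X ⊔ (Y ⊔ f.ker) by rw [← sup_assoc, sup_of_le_left h],
      AddSubgroup.relIndex_sup_right, ← AddSubgroup.inf_relIndex_right,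
      sup_inf_assoc_of_le f.ker h, inf_comm f.ker X]
  rw [e1, ← AddSubgroup.relIndex_mul_relIndex Y (Y ⊔ (X ⊓ f.ker)) X le_sup_left
    (sup_le h inf_le_left), AddSubgroup.relIndex_sup_left, mul_comm]

lemma associated_cyclotomic_prime {p : ℕ} [Fact p.Prime] {R : Type*} [CommRing R] [IsDomain R]
    {μ : R} (hμ : IsPrimitiveRoot μ p) : Associated ((μ - 1) ^ (p - 1)) (p : R) := by
  obtain ⟨n, hn⟩ : ∃ n, p = n + 1 :=
    ⟨p - 1, by have := (Fact.out : p.Prime).one_lt; omega⟩
  subst hn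
  have := hμ.prod_one_sub_pow_eq_order
  rw [show ((n + 1 : ℕ) : R) = (n : R) + 1 by push_cast; ring, ← this]
  simp only [Nat.add_sub_cancel]
  conv_lhs => rw [← Finset.card_range n, ← Finset.prod_const]
  refine Associated.prod _ _ _ fun k hk => ?_
  rw [← neg_sub (μ ^ (k + 1)) 1]
  refine Associated.neg_right (hμ.associated_sub_one_pow_sub_one_of_coprime
    (((Fact.out : (n + 1).Prime).coprime_iff_not_dvd.2 fun hd => ?_).symm))
  have := Nat.le_of_dvd (by omega) hd
  have := Finset.mem_range.1 hk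
  omega

open Polynomial in
/-- In a module over `ℤ[X] / Φ_p`, the `(p-1)`-st power of `X - 1` is `p` times a unit. -/
lemma exists_pow_eq (p : ℕ) [Fact p.Prime] {K : Type*} [AddCommGroup K] (τ : AddMonoid.End K)
    (hN : ∑ i ∈ Finset.range p, τ ^ i = 0) :
    ∃ u v : AddMonoid.End K, (τ - 1) ^ (p - 1) * u = (p : AddMonoid.End K) ∧
      u * (τ - 1) ^ (p - 1) = (p : AddMonoid.End K) ∧
      (p : AddMonoid.End K) * v = (τ - 1) ^ (p - 1) ∧
      v * (p : AddMonoid.End K) = (τ - 1) ^ (p - 1) := by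
  let S := AdjoinRoot (cyclotomic p ℤ)
  have hirr := cyclotomic.irreducible (n := p) (Fact.out : p.Prime).pos
  have : IsDomain S := AdjoinRoot.isDomain_of_prime hirr.prime
  have : CharZero S := charZero_of_injective_algebraMap
    (AdjoinRoot.of.injective_of_degree_ne_zero (degree_cyclotomic_pos p ℤ (Fact.out : p.Prime).pos).ne')
  have hprim : IsPrimitiveRoot (AdjoinRoot.root (cyclotomic p ℤ)) p := by
    have : NeZero (p : S) := ⟨Nat.cast_ne_zero.2 (Fact.out : p.Prime).ne_zero⟩
    rw [← isRoot_cyclotomic_iff, ← map_cyclotomic p (AdjoinRoot.of (cyclotomic p ℤ))]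
    exact AdjoinRoot.isRoot_root _
  obtain ⟨u, hu⟩ := associated_cyclotomic_prime hprim
  obtain ⟨v, hv⟩ := (associated_cyclotomic_prime hprim).symm
  obtain ⟨U, hU⟩ := AdjoinRoot.mk_surjective (u : S)
  obtain ⟨V, hV⟩ := AdjoinRoot.mk_surjective (v : S)
  have ev : ∀ P Q : ℤ[X], AdjoinRoot.mk (cyclotomic p ℤ) P = AdjoinRoot.mk (cyclotomic p ℤ) Q →
      aeval τ P = aeval τ Q := by
    intro P Q h
    obtain ⟨W, hW⟩ := AdjoinRoot.mk_eq_mk.1 h
    rw [← sub_eq_zero, ← map_sub, hW, map_mul, cyclotomic_prime, map_sum]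
    simp [hN]
  have e1 := ev ((X - 1) ^ (p - 1) * U) (p : ℤ[X]) (by
      rw [map_mul, map_pow, map_sub, AdjoinRoot.mk_X, map_one, hU, hu, map_natCast])
  have e2 := ev ((p : ℤ[X]) * V) ((X - 1) ^ (p - 1)) (by
      rw [map_mul, map_natCast, hV, hv, map_pow, map_sub, AdjoinRoot.mk_X, map_one])
  refine ⟨aeval τ U, aeval τ V, ?_, ?_, ?_, ?_⟩
  · simpa using e1
  · rw [mul_comm] at e1; simpa using e1
  · simpa using e2
  · rw [mul_comm] at e2; simpa using e2

/-- The iterates of an endomorphism, as homomorphisms. -/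
def powHom {K : Type*} [AddCommGroup K] (D : K →+ K) : ℕ → (K →+ K)
  | 0 => AddMonoidHom.id K
  | n + 1 => (powHom D n).comp D

lemma powHom_apply {K : Type*} [AddCommGroup K] (D : K →+ K) :
    ∀ (n : ℕ) (x : K), powHom D n x = D^[n] x
  | 0, _ => rfl
  | n + 1, x => (powHom_apply D n (D x)).trans (Function.iterate_succ_apply _ _ _).symm

lemma finite_ker_powHom {K : Type*} [AddCommGroup K] (D : K →+ K) [Finite D.ker] :
    ∀ n : ℕ, Finite (powHom D n).ker
  | 0 => by
    rw [show (powHom D 0).ker = ⊥ by ext x; simp [powHom]]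
    infer_instance
  | n + 1 => by
    have := finite_ker_powHom D n
    let φ : (powHom D (n + 1)).ker →+ (powHom D n).ker :=
      (D.comp (powHom D (n + 1)).ker.subtype).codRestrict _ fun x => x.2
    refine φ.finite_iff_finite_ker_range.2 ⟨?_, inferInstance⟩
    exact Finite.of_injective (fun x => (⟨x.1.1, congrArg Subtype.val x.2⟩ : D.ker))
      fun a b hab => Subtype.ext (Subtype.ext (congrArg Subtype.val hab :))

lemma pow_index_card {K : Type*} [AddCommGroup K] (D : K →+ K) [Finite D.ker] : ∀ n : ℕ,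
    (powHom D n).range.index * Nat.card D.ker ^ n
      = D.range.index ^ n * Nat.card (powHom D n).ker
  | 0 => by
    rw [show (powHom D 0).range = ⊤ from AddMonoidHom.range_eq_top.2 fun x => ⟨x, rfl⟩,
      show (powHom D 0).ker = ⊥ by ext x; simp [powHom]]
    simp
  | n + 1 => by
    have h : (powHom D (n + 1)).range.index * (Nat.card (powHom D n).ker * Nat.card D.ker)
        = (powHom D n).range.index * D.range.index * Nat.card (powHom D (n + 1)).ker :=
      index_range_comp (powHom D n) D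
    have ih := pow_index_card D n
    have := finite_ker_powHom D n
    have hpn : 0 < Nat.card (powHom D n).ker := Nat.card_pos
    refine Nat.eq_of_mul_eq_mul_right hpn ?_
    calc (powHom D (n + 1)).range.index * Nat.card D.ker ^ (n + 1) * Nat.card (powHom D n).ker
        = Nat.card D.ker ^ n * ((powHom D (n + 1)).range.index
            * (Nat.card (powHom D n).ker * Nat.card D.ker)) := by ring
      _ = ((powHom D n).range.index * Nat.card D.ker ^ n)
            * (D.range.index * Nat.card (powHom D (n + 1)).ker) := by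
          rw [h]; ring
      _ = _ := by rw [ih]; ring

lemma sigmaSub_geom (σ : A →+ A) (x : A) : ∀ i : ℕ,
    (⇑σ)^[i] x - x = sigmaSub σ (∑ j ∈ Finset.range i, (⇑σ)^[j] x)
  | 0 => by simp
  | i + 1 => by
    rw [Finset.sum_range_succ, map_add, ← sigmaSub_geom σ x i, sigmaSub_apply,
      ← Function.iterate_succ_apply' σ i x]
    abel

lemma exists_card_eq_pow {p : ℕ} [Fact p.Prime] (M : Type*) [AddCommGroup M] [Finite M]
    (h : ∀ x : M, p • x = 0) : ∃ m, Nat.card M = p ^ m := by
  letI : Module (ZMod p) M := AddCommGroup.zmodModule h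
  exact ⟨_, by rw [Module.natCard_eq_pow_finrank (K := ZMod p), Nat.card_zmod]⟩

lemma finrank_range_add_finrank_ker_int {M N : Type*} [AddCommGroup M] [AddCommGroup N]
    [Module.Finite ℤ M] (f : M →ₗ[ℤ] N) :
    finrank ℤ (LinearMap.range f) + finrank ℤ (LinearMap.ker f) = finrank ℤ M := by
  rw [← f.quotKerEquivRange.finrank_eq, Submodule.finrank_quotient_add_finrank]

variable [Module.Finite ℤ A]

lemma addGroup_fg_addSubgroup (H : AddSubgroup A) : AddGroup.FG H := by
  rw [← Module.Finite.iff_addGroup_fg]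
  exact Module.Finite.of_injective H.subtype.toIntLinearMap Subtype.val_injective

lemma finite_of_nsmul {p : ℕ} (hp : 0 < p) (M : Type*) [AddCommGroup M] [AddGroup.FG M]
    (h : ∀ x : M, p • x = 0) : Finite M :=
  AddCommGroup.finite_of_fg_torsion M fun x =>
    isOfFinAddOrder_iff_nsmul_eq_zero.2 ⟨p, hp, h x⟩

lemma finite_nsmul_ker {p : ℕ} (hp : 0 < p) (H : AddSubgroup A) :
    Finite (nsmulAddMonoidHom p : H →+ H).ker := by
  have := addGroup_fg_addSubgroup H
  have : AddGroup.FG (nsmulAddMonoidHom p : H →+ H).ker := by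
    rw [← Module.Finite.iff_addGroup_fg]
    have := Module.Finite.iff_addGroup_fg.2 (addGroup_fg_addSubgroup H)
    exact Module.Finite.of_injective
      (nsmulAddMonoidHom p : H →+ H).ker.subtype.toIntLinearMap Subtype.val_injective
  exact finite_of_nsmul hp _ fun x => Subtype.ext x.2

/-- the rank formula `h = p^((p rG - r)/(p-1))` -/
theorem hasHerbrand_of_fg {p : ℕ} (hp : p.Prime) (σ : A →+ A) (h : ∀ a, σ^[p] a = a) :
    ∃ m n : ℕ, (p - 1) * (m : ℤ) - (p - 1) * (n : ℤ)
        = p * Module.finrank ℤ ↥(sigmaSub σ).ker.toIntSubmodule - Module.finrank ℤ A ∧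
      HasHerbrand (sigmaSub σ) (sigmaNorm σ p) (p ^ m) (p ^ n) := by
  have : Fact p.Prime := ⟨hp⟩
  set D := sigmaSub σ with hDdef
  set N := sigmaNorm σ p with hNdef
  set B := D.ker with hBdef
  set K := N.ker with hKdef
  have hDA : D.range ≤ K := by rintro _ ⟨y, rfl⟩; exact sigmaNorm_sigmaSub h y
  have hNA : N.range ≤ B := by rintro _ ⟨y, rfl⟩; exact sigmaSub_sigmaNorm h y
  have hNB : ∀ b ∈ B, N b = p • b := fun b hb => sigmaNorm_of_fixed (sub_eq_zero.1 hb)
  -- the two Tate groups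
  have hAfg : AddGroup.FG A := Module.Finite.iff_addGroup_fg.1 inferInstance
  have := addGroup_fg_addSubgroup B
  have := addGroup_fg_addSubgroup K
  have k0 : ∀ x : TateQuot D N, p • x = 0 := by
    intro x
    obtain ⟨b, rfl⟩ := QuotientAddGroup.mk_surjective x
    rw [← QuotientAddGroup.mk_nsmul, QuotientAddGroup.eq_zero_iff]
    exact ⟨b.1, hNB b.1 b.2⟩
  have k1 : ∀ x : TateQuot N D, p • x = 0 := by
    intro x
    obtain ⟨b, rfl⟩ := QuotientAddGroup.mk_surjective x
    rw [← QuotientAddGroup.mk_nsmul, QuotientAddGroup.eq_zero_iff]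
    refine ⟨-∑ i ∈ Finset.range p, ∑ j ∈ Finset.range i, (⇑σ)^[j] b.1, ?_⟩
    have e : ∑ i ∈ Finset.range p, ((⇑σ)^[i] b.1 - b.1) = - (p • b.1) := by
      rw [Finset.sum_sub_distrib, ← sigmaNorm_apply, show sigmaNorm σ p b.1 = 0 from b.2]
      simp
    simp only [sigmaSub_geom] at e
    rw [map_neg, map_sum]
    simp only [AddSubgroup.subtype_apply, AddSubgroup.coe_nsmul, hDdef]
    rw [e, neg_neg]
  have : AddGroup.FG (TateQuot D N) :=
    AddGroup.fg_of_surjective (f := QuotientAddGroup.mk' _) (QuotientAddGroup.mk'_surjective _)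
  have : AddGroup.FG (TateQuot N D) :=
    AddGroup.fg_of_surjective (f := QuotientAddGroup.mk' _) (QuotientAddGroup.mk'_surjective _)
  have hf0 := finite_of_nsmul hp.pos _ k0
  have hf1 := finite_of_nsmul hp.pos _ k1
  obtain ⟨m, hm⟩ := exists_card_eq_pow _ k0
  obtain ⟨n, hn⟩ := exists_card_eq_pow _ k1
  -- `[A : B + K]` computed with `D` and with `N`
  have iD : (K.map D).relIndex D.range = (B ⊔ K).index := by
    have := relIndex_map_mul D (Y := B ⊔ K) (X := ⊤) le_top
    rw [AddSubgroup.relIndex_top_right, top_inf_eq, AddSubgroup.map_sup,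
      (AddSubgroup.map_eq_bot_iff B).2 le_rfl, bot_sup_eq,
      ← AddMonoidHom.range_eq_map, AddSubgroup.relIndex_eq_one.2 le_sup_left, mul_one] at this
    exact this.symm
  have iN : (B.map N).relIndex N.range = (B ⊔ K).index := by
    have := relIndex_map_mul N (Y := B ⊔ K) (X := ⊤) le_top
    rw [AddSubgroup.relIndex_top_right, top_inf_eq, AddSubgroup.map_sup,
      (AddSubgroup.map_eq_bot_iff K).2 le_rfl, sup_bot_eq,
      ← AddMonoidHom.range_eq_map, AddSubgroup.relIndex_eq_one.2 le_sup_right, mul_one] at this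
    exact this.symm
  -- the restriction to `K`
  have cσ : ∀ x, N (σ x) = σ (N x) := fun x => (map_sigmaNorm (i := σ) (fun _ => rfl) p x).symm
  let τ : AddMonoid.End K := (σ.comp K.subtype).codRestrict K fun x => by
    rw [AddMonoidHom.mem_ker, AddMonoidHom.comp_apply, AddSubgroup.subtype_apply, cσ,
      show N x.1 = 0 from x.2, map_zero]
  have hτ : ∀ (i : ℕ) (x : K), ((τ ^ i) x : A) = (⇑σ)^[i] x.1 := by
    intro i x
    rw [AddMonoid.End.coe_pow]
    exact (Function.Semiconj.iterate_right (f := (Subtype.val : K → A)) (fun _ => rfl) i x)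
  obtain ⟨u, v, hu, hu', hv, hv'⟩ := exists_pow_eq p τ (by
    ext x
    have e := x.2
    rw [AddMonoidHom.mem_ker, hNdef, sigmaNorm_apply] at e
    rw [show (∑ i ∈ Finset.range p, τ ^ i) x = ∑ i ∈ Finset.range p, (τ ^ i) x from
      AddMonoidHom.finsetSum_apply _ _ _]
    simp only [AddMonoidHom.zero_apply, AddSubmonoidClass.coe_finsetSum, hτ]
    exact e)
  let DK : K →+ K := (τ - 1 : AddMonoid.End K)
  have hDK : ∀ x : K, (DK x : A) = D x.1 := fun x => rfl
  have hpow : ∀ x : K, powHom DK (p - 1) x = ((τ - 1) ^ (p - 1)) x := fun x => by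
    rw [powHom_apply, AddMonoid.End.coe_pow]; rfl
  have hnat : ∀ x : K, (p : AddMonoid.End K) x = p • x := fun x => by simp
  have r1 : (powHom DK (p - 1)).range = (nsmulAddMonoidHom p : K →+ K).range := by
    ext y
    simp only [AddMonoidHom.mem_range, nsmulAddMonoidHom_apply, hpow]
    constructor
    · rintro ⟨x, rfl⟩
      exact ⟨v x, by rw [← hnat, ← hv]; rfl⟩
    · rintro ⟨x, rfl⟩
      exact ⟨u x, by rw [← hnat, ← hu]; rfl⟩
  have r2 : (powHom DK (p - 1)).ker = (nsmulAddMonoidHom p : K →+ K).ker := by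
    ext x
    simp only [AddMonoidHom.mem_ker, nsmulAddMonoidHom_apply, hpow]
    constructor
    · intro hx; rw [← hnat, ← hu']; exact (congrArg u hx).trans (map_zero u)
    · intro hx; rw [← hv']
      exact ((congrArg v (hnat x)).trans (congrArg v hx)).trans (map_zero v)
  have eBK : Nat.card DK.ker = Nat.card (nsmulAddMonoidHom p : B →+ B).ker := by
    refine Nat.card_congr
      { toFun := fun x => ⟨⟨x.1.1, (hDK x.1).symm.trans (congrArg Subtype.val x.2)⟩, ?_⟩
        invFun := fun y => ⟨⟨y.1.1, ?_⟩, ?_⟩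
        left_inv := fun x => rfl
        right_inv := fun x => rfl }
    · refine Subtype.ext ?_
      show p • x.1.1 = 0
      rw [← hNB x.1.1 ((hDK x.1).symm.trans (congrArg Subtype.val x.2))]
      exact x.1.2
    · show N y.1.1 = 0
      rw [hNB _ y.1.2]
      exact congrArg Subtype.val y.2
    · exact Subtype.ext y.1.2
  have := finite_nsmul_ker hp.pos B
  have : Finite DK.ker := Nat.finite_of_card_ne_zero (eBK ▸ Nat.card_pos.ne')
  have hidx : DK.range.index = (K.map D).relIndex K := by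
    rw [AddSubgroup.relIndex]
    congr 1
    ext x
    simp only [AddMonoidHom.mem_range, AddSubgroup.mem_addSubgroupOf, AddSubgroup.mem_map]
    constructor
    · rintro ⟨y, rfl⟩; exact ⟨y.1, y.2, (hDK y).symm⟩
    · rintro ⟨y, hy, e⟩; exact ⟨⟨y, hy⟩, Subtype.ext e⟩
  have hBidx : (nsmulAddMonoidHom p : B →+ B).range.index = (B.map N).relIndex B := by
    rw [AddSubgroup.relIndex]
    congr 1
    ext x
    simp only [AddMonoidHom.mem_range, AddSubgroup.mem_addSubgroupOf, AddSubgroup.mem_map,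
      nsmulAddMonoidHom_apply]
    constructor
    · rintro ⟨y, rfl⟩; exact ⟨y.1, y.2, hNB y.1 y.2⟩
    · rintro ⟨y, hy, e⟩; exact ⟨⟨y, hy⟩, Subtype.ext ((hNB y hy).symm.trans e)⟩
  have eK := pow_index_card DK (p - 1)
  rw [r1, r2, Ext.index_nsmul_range, eBK, hidx] at eK
  have := finite_nsmul_ker hp.pos K
  have eK' : p ^ finrank ℤ K * Nat.card (nsmulAddMonoidHom p : B →+ B).ker ^ (p - 1)
      = (K.map D).relIndex K ^ (p - 1) :=
    Nat.eq_of_mul_eq_mul_right (Nat.card_pos (α := (nsmulAddMonoidHom p : K →+ K).ker))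
      (by rw [← eK]; ring)
  have eB : (B.map N).relIndex B = p ^ finrank ℤ B * Nat.card (nsmulAddMonoidHom p : B →+ B).ker := by
    rw [← hBidx, Ext.index_nsmul_range]
  have s1 : Nat.card (TateQuot N D) * (K.map D).relIndex D.range = (K.map D).relIndex K := by
    rw [card_tateQuot, mul_comm]
    exact AddSubgroup.relIndex_mul_relIndex _ _ _ (fun _ ⟨x, _, hx⟩ => ⟨x, hx⟩) hDA
  have s0 : Nat.card (TateQuot D N) * (B.map N).relIndex N.range = (B.map N).relIndex B := by
    rw [card_tateQuot, mul_comm]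
    exact AddSubgroup.relIndex_mul_relIndex _ _ _ (fun _ ⟨x, _, hx⟩ => ⟨x, hx⟩) hNA
  -- ranks
  have hrk : finrank ℤ B + finrank ℤ K = finrank ℤ A := by
    have e := finrank_range_add_finrank_ker_int N.toIntLinearMap
    have e1 : finrank ℤ (LinearMap.ker N.toIntLinearMap) = finrank ℤ K := rfl
    have e2 : finrank ℤ (LinearMap.range N.toIntLinearMap) = finrank ℤ B := by
      refine le_antisymm ?_ ?_
      · exact LinearMap.finrank_le_finrank_of_injective
          (f := (AddSubgroup.inclusion hNA).toIntLinearMap)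
          (AddSubgroup.inclusion_injective hNA)
      · let g : B →+ N.range := (N.comp B.subtype).codRestrict N.range fun x => ⟨_, rfl⟩
        have : Module.Finite ℤ B := Module.Finite.iff_addGroup_fg.2 (addGroup_fg_addSubgroup B)
        have e3 := finrank_range_add_finrank_ker_int g.toIntLinearMap
        have e4 : finrank ℤ (LinearMap.ker g.toIntLinearMap) = 0 := by
          rw [Module.finrank_eq_zero_iff]
          intro x
          refine ⟨(p : ℤ), by exact_mod_cast hp.ne_zero, ?_⟩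
          have h0 : N x.1.1 = 0 := congrArg Subtype.val x.2
          refine Subtype.ext (Subtype.ext ?_)
          show (p : ℤ) • x.1.1 = 0
          rw [natCast_zsmul, ← hNB _ x.1.2]
          exact h0
        rw [e4, add_zero] at e3
        rw [← e3]
        exact Submodule.finrank_le _
    omega
  refine ⟨m, n, ?_, hf0, hf1, _, rfl, by rw [hm, hn]⟩
  have key : Nat.card (TateQuot D N) ^ (p - 1) * (K.map D).relIndex K ^ (p - 1)
      = Nat.card (TateQuot N D) ^ (p - 1) * (B.map N).relIndex B ^ (p - 1) := by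
    rw [← mul_pow, ← mul_pow, ← s1, ← s0, iD, iN]
    ring
  rw [← eK', eB, hm, hn, mul_pow] at key
  have hb : 0 < Nat.card (nsmulAddMonoidHom p : B →+ B).ker ^ (p - 1) := pow_pos Nat.card_pos _
  have key' : (p ^ m) ^ (p - 1) * p ^ finrank ℤ K = (p ^ n) ^ (p - 1) * (p ^ finrank ℤ B) ^ (p - 1) :=
    Nat.eq_of_mul_eq_mul_right hb (by linarith [key])
  rw [← pow_mul, ← pow_mul, ← pow_mul, ← pow_add, ← pow_add] at key'
  have key'' := Nat.pow_right_injective hp.two_le key'
  have hB' : finrank ℤ ↥B.toIntSubmodule = finrank ℤ B := rfl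
  rw [hB', ← hrk]
  have h1p : 1 ≤ p := hp.one_le
  have key3 : ((p - 1 : ℕ) : ℤ) = (p : ℤ) - 1 := by push_cast [Nat.cast_sub h1p]; ring
  have key4 := congrArg (Nat.cast : ℕ → ℤ) key''
  push_cast [key3] at key4
  push_cast
  linear_combination key4

end rank

end FLTAgent.Global
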