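import Fermat.Agent.Global.ClassGroup
import Fermat.Agent.Global.Herbrand
import Fermat.Agent.Ext.SUnits

/-!
Dirichlet's `T`-unit theorem for the fixed field of an open subgroup, with places described by
double cosets and valuations by absolute values.
-/

set_option autoImplicit false
set_option linter.unusedSectionVars false

noncomputable section

open NumberField Module
open scoped nonZeroDivisors

namespace FLTAgent.Global

/-! ### Places -/

lemma finite_places_of_le (L : Level) {H : Subgroup GQ} (hH : L.grp ≤ H) (q : Nat.Primes) :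
    Finite (Places q H) := by
  have := L.finite_quotient
  refine Finite.of_surjective (fun i : GQ ⧸ L.grp => DoubleCoset.mk (dec q) H i.out) fun c => ?_
  induction c using Quotient.inductionOn' with | h g => ?_
  have hs : (QuotientGroup.mk g : GQ ⧸ L.grp).out⁻¹ * g ∈ L.grp :=
    QuotientGroup.eq.1 (QuotientGroup.out_eq' _)
  exact ⟨QuotientGroup.mk g, (DoubleCoset.eq _ _ _ _).2
    ⟨1, (dec q).one_mem, _, hH hs, by simp⟩⟩

lemma norm_sval_mk_eq {q : Nat.Primes} {H : Subgroup GQ} {x : Semi q}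
    (hx : x ∈ fixSub (A := Semi q) H) {g g' : GQ}
    (h : DoubleCoset.mk (dec q) H g = DoubleCoset.mk (dec q) H g') :
    ‖sval x g‖ = ‖sval x g'‖ := by
  obtain ⟨d, ⟨τ, rfl⟩, s, hs, rfl⟩ := (DoubleCoset.eq _ _ _ _).1 h
  rw [mul_assoc, sval_loc, norm_gq, sval_mul_right hx _ hs]

lemma exists_pow_norm_eq_zpow (L : Level) (q : Nat.Primes) :
    ∃ D : ℕ, 0 < D ∧ ∀ x ∈ fixSub (A := Semi q) L.grp, ∀ g,
      ∃ n : ℤ, ‖sval x g‖ ^ D = ((q : ℕ) : ℝ) ^ n := by
  obtain ⟨E, hE, hval⟩ := exists_finite_sval L q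
  refine ⟨(finrank ℚ_[(q : ℕ)] E).factorial, Nat.factorial_pos _, fun x hx g => ?_⟩
  set y := sval x g
  have hy : IsIntegral ℚ_[(q : ℕ)] y := Algebra.IsIntegral.isIntegral y
  set d := (minpoly ℚ_[(q : ℕ)] y).natDegree with hd
  have hd0 : 0 < d := minpoly.natDegree_pos hy
  have hle : d ≤ finrank ℚ_[(q : ℕ)] E := by
    have := minpoly.natDegree_le (A := ℚ_[(q : ℕ)]) (⟨y, hval x hx g⟩ : E)
    rwa [IntermediateField.minpoly_eq] at this
  obtain ⟨e, he⟩ := Nat.dvd_factorial hd0 hle
  have h0 : (minpoly ℚ_[(q : ℕ)] y).coeff 0 ≠ 0 :=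
    minpoly.coeff_zero_ne_zero hy (sval_ne_zero x g)
  have hpow : ‖y‖ ^ d = ‖(minpoly ℚ_[(q : ℕ)] y).coeff 0‖ := by
    have h := spectralNorm.spectralNorm_eq_norm_coeff_zero_rpow (K := ℚ_[(q : ℕ)]) (L := Kq q) y
    rw [PadicAlgCl.spectralNorm_eq, ← hd, one_div] at h
    rw [h, ← Real.rpow_natCast, Real.rpow_inv_rpow (norm_nonneg _) (by exact_mod_cast hd0.ne')]
  refine ⟨-((minpoly ℚ_[(q : ℕ)] y).coeff 0).valuation * (e : ℤ), ?_⟩
  rw [he, pow_mul, hpow, Padic.norm_eq_zpow_neg_valuation h0, ← zpow_natCast, ← zpow_mul]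

/-- `q` at one place over `q`, and `1` at the others. -/
def qpowAt (L : Level) {H : Subgroup GQ} (hH : L.grp ≤ H) (q : Nat.Primes) (c : Places q H) :
    Semi q := by
  classical
  exact ⟨fun g => if DoubleCoset.mk (dec q) H g = c then
      Additive.ofMul (Units.mk0 ((q : ℕ) : Kq q) (Nat.cast_ne_zero.2 q.2.ne_zero)) else 0,
    fun τ g => by
      have e : DoubleCoset.mk (dec q) H (loc q τ * g) = DoubleCoset.mk (dec q) H g :=
        (DoubleCoset.eq _ _ _ _).2 ⟨(loc q τ)⁻¹, inv_mem ⟨τ, rfl⟩, 1, H.one_mem, by simp⟩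
      simp only [e]
      split_ifs <;> simp,
    ⟨L, fun g s hs => by
      have e : DoubleCoset.mk (dec q) H (g * s) = DoubleCoset.mk (dec q) H g :=
        (DoubleCoset.eq _ _ _ _).2 ⟨1, (dec q).one_mem, s⁻¹, inv_mem (hH hs), by simp⟩
      simp only [e]⟩⟩

lemma sval_qpowAt (L : Level) {H : Subgroup GQ} (hH : L.grp ≤ H) (q : Nat.Primes) (c : Places q H)
    (g : GQ) [Decidable (DoubleCoset.mk (dec q) H g = c)] : sval (qpowAt L hH q c) g
      = if DoubleCoset.mk (dec q) H g = c then ((q : ℕ) : Kq q) else 1 := by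
  unfold qpowAt sval
  simp only
  split_ifs <;> rfl

lemma qpowAt_mem (L : Level) {H : Subgroup GQ} (hH : L.grp ≤ H) (q : Nat.Primes) (c : Places q H) :
    qpowAt L hH q c ∈ fixSub (A := Semi q) H := by
  classical
  refine fun s hs => semi_ext fun g => ?_
  rw [sval_smul, sval_qpowAt, sval_qpowAt]
  have e : DoubleCoset.mk (dec q) H (g * s) = DoubleCoset.mk (dec q) H g :=
    (DoubleCoset.eq _ _ _ _).2 ⟨1, (dec q).one_mem, s⁻¹, inv_mem hs, by simp⟩
  simp only [e]

lemma index_eq_finrank_fixField (L : Level) {H : Subgroup GQ} (hH : L.grp ≤ H) :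
    finrank ℚ (fixField H) = H.index := by
  have := L.fin
  have ho : IsOpen (H : Set GQ) :=
    Subgroup.isOpen_mono hH (IntermediateField.fixingSubgroup_isOpen L.fld)
  let C : ClosedSubgroup GQ := ⟨H, Subgroup.isClosed_of_isOpen H ho⟩
  rw [IntermediateField.finrank_eq_fixingSubgroup_index,
    InfiniteGalois.fixingSubgroup_fixedField C]

/-! ### The valuation map -/

variable {H : Subgroup GQ}

lemma mem_sUnit_iff {T : Finset Nat.Primes} {a : QMul} :
    a ∈ sUnit T ↔ ∀ q ∉ T, ∀ g : GQ, ‖emb q (g (qval a))‖ = 1 := Iff.rfl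

section valMap

variable (L : Level) (hH : L.grp ≤ H) (T : Finset Nat.Primes)

/-- The denominator of the valuations over `q`. -/
def valDen (q : Nat.Primes) : ℕ := (exists_pow_norm_eq_zpow L q).choose

lemma valDen_pos (q : Nat.Primes) : 0 < valDen L q := (exists_pow_norm_eq_zpow L q).choose_spec.1

/-- The index set: the places over `T`. -/
abbrev PlaceSet (H : Subgroup GQ) := Σ q : T, Places q.1 H

include hH in
lemma exists_val (a : ↥(sUnit T ⊓ fixSub (A := QMul) H)) (i : PlaceSet T H) :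
    ∃ n : ℤ, ‖emb i.1.1 (i.2.out (qval a.1))‖ ^ valDen L i.1.1 = ((i.1.1 : ℕ) : ℝ) ^ n :=
  (exists_pow_norm_eq_zpow L i.1.1).choose_spec.2 _
    (comp_mem_fixSub (principal_mem_fixSub (fun s hs => a.2.2 s (hH hs))) i.1.1) _

lemma zpow_prime_inj (q : Nat.Primes) {m n : ℤ}
    (h : ((q : ℕ) : ℝ) ^ m = ((q : ℕ) : ℝ) ^ n) : m = n :=
  zpow_right_injective₀ (by exact_mod_cast q.2.pos) (by exact_mod_cast q.2.ne_one) h

/-- The valuation vector of a `T`-unit. -/
def valMap : ↥(sUnit T ⊓ fixSub (A := QMul) H) →+ (PlaceSet T H → ℤ) :=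
  AddMonoidHom.mk' (fun a i => (exists_val L hH T a i).choose) fun a b => funext fun i => by
    refine zpow_prime_inj i.1.1 ?_
    rw [← (exists_val L hH T (a + b) i).choose_spec, Pi.add_apply,
      zpow_add₀ (by exact_mod_cast i.1.1.2.ne_zero),
      ← (exists_val L hH T a i).choose_spec, ← (exists_val L hH T b i).choose_spec]
    simp [mul_pow]

lemma valMap_spec (a : ↥(sUnit T ⊓ fixSub (A := QMul) H)) (i : PlaceSet T H) :
    ‖emb i.1.1 (i.2.out (qval a.1))‖ ^ valDen L i.1.1
      = ((i.1.1 : ℕ) : ℝ) ^ valMap L hH T a i :=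
  (exists_val L hH T a i).choose_spec

/-- The units of the fixed field as `T`-units. -/
def unitsMap : Additive (𝓞 (fixField H))ˣ →+ ↥(sUnit T ⊓ fixSub (A := QMul) H) :=
  (MonoidHom.toAdditive (Units.map ((fixField H).val.toRingHom.comp
      (algebraMap (𝓞 (fixField H)) (fixField H))).toMonoidHom)).codRestrict _ fun u => by
    refine ⟨fun q _ g => ?_, mem_fixSub_qmul.2 (((u.toMul : (𝓞 (fixField H))ˣ) :
      𝓞 (fixField H)) : fixField H).2⟩
    have hi : ∀ w : 𝓞 (fixField H), ‖emb q (g ((w : fixField H) : QQbar))‖ ≤ 1 := fun w =>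
      norm_emb_le_one_of_isIntegral (w.2.map ((fixField H).val.restrictScalars ℤ)) q g
    refine le_antisymm (hi _) ?_
    have h1 : ‖emb q (g (((u.toMul : 𝓞 (fixField H)) : fixField H) : QQbar))‖
        * ‖emb q (g ((((u.toMul⁻¹ : (𝓞 (fixField H))ˣ) : 𝓞 (fixField H)) : fixField H) : QQbar))‖
          = 1 := by
      rw [← norm_mul, ← map_mul, ← map_mul]
      show ‖emb q (g ((((u.toMul : 𝓞 (fixField H)) * (u.toMul⁻¹ : (𝓞 (fixField H))ˣ) :
        𝓞 (fixField H)) : fixField H) : QQbar))‖ = 1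
      simp
    calc (1 : ℝ) = _ := h1.symm
      _ ≤ _ := mul_le_of_le_one_right (norm_nonneg _) (hi _)

lemma unitsMap_injective : Function.Injective (unitsMap (H := H) T) := by
  intro u v h
  apply Additive.toMul.injective
  apply Units.ext
  apply RingOfIntegers.coe_injective
  apply Subtype.ext
  exact congrArg (fun z : ↥(sUnit T ⊓ fixSub (A := QMul) H) => qval z.1) h

lemma range_unitsMap : (unitsMap (H := H) T).range = (valMap L hH T).ker := by
  refine le_antisymm ?_ fun a ha => ?_
  · rintro _ ⟨u, rfl⟩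
    refine funext fun i => zpow_prime_inj i.1.1 ?_
    rw [← valMap_spec, Pi.zero_apply, zpow_zero]
    have : (unitsMap (H := H) T u).1 ∈ sUnit ∅ := (unitsMap (H := H) ∅ u).2.1
    have hh : ‖emb i.1.1 (i.2.out (qval (unitsMap (H := H) T u).1))‖ = 1 :=
      this i.1.1 (Finset.notMem_empty _) i.2.out
    rw [hh, one_pow]
  · have hn : ∀ (q : Nat.Primes) (g : GQ), ‖emb q (g (qval a.1))‖ = 1 := by
      intro q g
      by_cases hq : q ∈ T
      · let i : PlaceSet T H := ⟨⟨q, hq⟩, DoubleCoset.mk (dec q) H g⟩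
        have h1 := valMap_spec L hH T a i
        rw [AddMonoidHom.mem_ker.1 ha, Pi.zero_apply, zpow_zero,
          pow_eq_one_iff_of_nonneg (norm_nonneg _) (valDen_pos L _).ne'] at h1
        rw [← sval_principal, norm_sval_mk_eq (g' := i.2.out)
          (comp_mem_fixSub (principal_mem_fixSub a.2.2) q) (Quotient.out_eq' _).symm]
        exact h1
      · exact a.2.1 q hq g
    obtain ⟨b, hb⟩ := exists_integer (mem_fixSub_qmul.1 a.2.2) fun q g => (hn q g).le
    obtain ⟨c, hc⟩ := exists_integer (H := H) (a := (qval a.1)⁻¹)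
      (inv_mem (mem_fixSub_qmul.1 a.2.2)) fun q g => by
        rw [map_inv₀, map_inv₀, norm_inv, hn q g, inv_one]
    have hbc : b * c = 1 := RingOfIntegers.coe_injective (Subtype.ext (by
      show ((b : fixField H) : QQbar) * ((c : fixField H) : QQbar) = _
      rw [hb, hc, mul_inv_cancel₀ (qval_ne_zero _)]
      simp))
    exact ⟨Additive.ofMul ⟨b, c, hbc, mul_comm b c ▸ hbc⟩, Subtype.ext (qmul_ext hb)⟩

/-- Enough `T`-units: every place over `T` carries one, trivial at the others. -/
lemma exists_valMap_eq_single (i : PlaceSet T H) :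
    ∃ a : ↥(sUnit T ⊓ fixSub (A := QMul) H), ∃ n : ℤ, n ≠ 0 ∧
      valMap L hH T a i = n ∧ ∀ j, j ≠ i → valMap L hH T a j = 0 := by
  classical
  obtain ⟨Y, -, hY⟩ := exists_finset_ideleReps L hH
  set q := i.1.1 with hq
  set x := single q (qpowAt L hH q i.2) with hx
  have hxH : x ∈ fixSub (A := Idele) H := fun s hs => by
    rw [hx, ← single_smul, qpowAt_mem L hH q i.2 s hs]
  choose f hf a ha hu using fun k : ℕ => hY (k • x) (nsmul_mem hxH k)
  obtain ⟨k, hk, k', hk', hne, heq⟩ := Finset.exists_ne_map_eq_of_card_lt_of_maps_to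
    (s := Finset.range (Y.card + 1)) (t := Y) (by simp) (fun k _ => hf k)
  obtain ⟨k, k', hlt, heq⟩ : ∃ k k', k < k' ∧ f k = f k' := by
    rcases lt_or_gt_of_ne hne with h | h
    exacts [⟨k, k', h, heq⟩, ⟨k', k, h, heq.symm⟩]
  set b := a k' - a k
  have hb : b ∈ fixSub (A := QMul) H := sub_mem (ha k') (ha k)
  have hnorm : ∀ r g, ‖emb r (g (qval b))‖ = ‖sval (comp r x) g‖ ^ (k' - k) := by
    intro r g
    have h1 := (sIdele ∅).sub_mem (hu k') (hu k) r (Finset.notMem_empty r) g
    have e : k' • x - f k' - principal (a k') - (k • x - f k - principal (a k))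
        = (k' - k) • x - principal b := by
      rw [map_sub, ← heq, show k' • x = (k' - k) • x + k • x by
        rw [← add_nsmul, Nat.sub_add_cancel hlt.le]]
      abel
    rw [e, map_sub, sub_eq_add_neg, sval_add, sval_neg, norm_mul, norm_inv, sval_principal] at h1
    rw [← (mul_inv_eq_one₀ (by simp [qval_ne_zero])).1 h1, ← norm_pow]
    congr 1
  have hbT : b ∈ sUnit T := by
    intro r hr g
    show ‖emb r (g (qval b))‖ = 1
    rw [hnorm, hx, comp_single_ne (show r ≠ q from fun h => hr (by rw [h]; exact i.1.2)), sval_zero, norm_one, one_pow]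
  refine ⟨⟨b, hbT, hb⟩, -((k' - k : ℕ) : ℤ) * (valDen L q : ℤ), ?_, ?_, ?_⟩
  · have := valDen_pos L q
    have := Nat.sub_pos_of_lt hlt
    simp only [ne_eq, mul_eq_zero, neg_eq_zero, Nat.cast_eq_zero, not_or]
    omega
  · refine zpow_prime_inj q ?_
    rw [← valMap_spec, hnorm, hx, comp_single, sval_qpowAt,
      if_pos (show DoubleCoset.mk (dec q) H i.2.out = i.2 from Quotient.out_eq' _),
      norm_prime_kq, ← pow_mul, inv_pow, neg_mul, zpow_neg, ← Nat.cast_mul, zpow_natCast]
  · intro j hj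
    refine zpow_prime_inj j.1.1 ?_
    rw [← valMap_spec, hnorm, zpow_zero]
    obtain ⟨⟨r, hr⟩, c⟩ := j
    by_cases hrq : r = q
    · subst hrq
      rw [hx, comp_single, sval_qpowAt, if_neg, norm_one, one_pow, one_pow]
      intro h
      refine hj ?_
      have : c = i.2 := (Quotient.out_eq' c).symm.trans h
      subst this
      rfl
    · rw [hx, comp_single_ne hrq, sval_zero, norm_one, one_pow, one_pow]

end valMap

/-- Dirichlet's `T`-unit theorem, with the torsion at `p`: the fixed field contains `μ_p`. -/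
theorem sUnit_structure (L : Level) {H : Subgroup GQ} (hH : L.grp ≤ H)
    {p : ℕ} (hp : p.Prime) (hp2 : p ≠ 2) {ζ : QQbar} (hζ : IsPrimitiveRoot ζ p)
    (hζH : ∀ s ∈ H, s ζ = ζ) (T : Finset Nat.Primes) :
    Module.Finite ℤ ↥(sUnit T ⊓ fixSub H).toIntSubmodule ∧
    2 * (Module.finrank ℤ ↥(sUnit T ⊓ fixSub H).toIntSubmodule + 1)
      = H.index + 2 * ∑ q ∈ T, Nat.card (Places q H) ∧
    (Nat.card (↥(sUnit T ⊓ fixSub H) ⧸
        (nsmulAddMonoidHom p : _ →+ ↥(sUnit T ⊓ fixSub H)).range)) ^ 2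
      = p ^ (H.index + 2 * ∑ q ∈ T, Nat.card (Places q H)) := by
  classical
  have : Fact p.Prime := ⟨hp⟩
  have := numberField_fixField L hH
  have : ∀ q, Finite (Places q H) := finite_places_of_le L hH
  have : Fintype (PlaceSet T H) := Fintype.ofFinite _
  let v := (valMap L hH T).toIntLinearMap
  let ψ := (unitsMap (H := H) T).toIntLinearMap
  have hker : LinearMap.ker v = LinearMap.range ψ := by
    ext a
    exact (SetLike.ext_iff.1 (range_unitsMap L hH T) a).symm
  have hfin : Module.Finite ℤ ↥(sUnit T ⊓ fixSub (A := QMul) H) := by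
    constructor
    refine Submodule.fg_of_fg_map_of_fg_inf_ker v (IsNoetherian.noetherian _) ?_
    rw [top_inf_eq, hker, ← Submodule.map_top]
    exact (Module.Finite.fg_top).map _
  have hr : finrank ℤ (LinearMap.range v) = Fintype.card (PlaceSet T H) := by
    refine le_antisymm ?_ ?_
    · exact (Submodule.finrank_le _).trans (Module.finrank_fintype_fun_eq_card ℤ).le
    · choose a n hn hai haj using exists_valMap_eq_single L hH T
      let Λ : (PlaceSet T H → ℤ) →ₗ[ℤ] (PlaceSet T H → ℤ) :=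
        LinearMap.pi fun i => n i • LinearMap.proj i
      have hinj : Function.Injective Λ := fun f g h => funext fun i => by
        have := congrFun h i
        simpa [Λ, hn i] using this
      have hle : LinearMap.range Λ ≤ LinearMap.range v := by
        rintro _ ⟨f, rfl⟩
        refine ⟨∑ i, f i • a i, funext fun j => ?_⟩
        rw [map_sum, Finset.sum_apply, Finset.sum_eq_single j]
        · rw [map_smul, Pi.smul_apply]
          show f j • valMap L hH T (a j) j = n j • f j
          rw [hai, smul_eq_mul, smul_eq_mul, mul_comm]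
        · intro i _ hij
          rw [map_smul, Pi.smul_apply]
          show f i • valMap L hH T (a i) j = 0
          rw [haj i j (Ne.symm hij), smul_zero]
        · simp
      refine le_trans ?_ (Submodule.finrank_mono hle)
      rw [← (LinearEquiv.ofInjective Λ hinj).finrank_eq, Module.finrank_fintype_fun_eq_card]
  have hcard : Fintype.card (PlaceSet T H) = ∑ q ∈ T, Nat.card (Places q H) := by
    rw [← Nat.card_eq_fintype_card, Nat.card_sigma, ← Finset.sum_coe_sort T fun q => Nat.card (Places q H)]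
  have hζk : ζ ∈ fixField H := mem_fixField_iff.2 hζH
  have : IsTotallyComplex (fixField H) := nrRealPlaces_eq_zero_iff.1
    (InfinitePlace.IsPrimitiveRoot.nrRealPlaces_eq_zero_of_two_lt
      (lt_of_le_of_ne hp.two_le (Ne.symm hp2))
      (IsPrimitiveRoot.of_map_of_injective (f := (fixField H).val)
        (ζ := (⟨ζ, hζk⟩ : fixField H)) hζ fun _ _ h => Subtype.ext h))
  have hrank : 2 * (finrank ℤ ↥(sUnit T ⊓ fixSub (A := QMul) H) + 1)
      = H.index + 2 * ∑ q ∈ T, Nat.card (Places q H) := by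
    rw [← finrank_range_add_finrank_ker_int v, hr, hker,
      ← (LinearEquiv.ofInjective ψ (unitsMap_injective (H := H) T)).finrank_eq, Units.finrank_eq,
      ← index_eq_finrank_fixField L hH, ← Ext.rank_of_totallyComplex (K := fixField H), hcard]
    ring
  refine ⟨hfin, hrank, ?_⟩
  have : AddGroup.FG ↥(sUnit T ⊓ fixSub (A := QMul) H) := Module.Finite.iff_addGroup_fg.1 hfin
  have hμ : Nat.card (nsmulAddMonoidHom p :
      ↥(sUnit T ⊓ fixSub (A := QMul) H) →+ _).ker = p := by
    have : NeZero p := ⟨hp.ne_zero⟩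
    refine Eq.trans (Nat.card_congr ?_) hζ.card_rootsOfUnity
    exact
      { toFun := fun x => ⟨Additive.toMul x.1.1, by
          rw [mem_rootsOfUnity, ← toMul_nsmul]
          have h : p • x.1.1 = 0 := congrArg Subtype.val x.2
          rw [h]; rfl⟩
        invFun := fun u => ⟨⟨Additive.ofMul u.1, fun q _ g => by
            have h1 : (u.1 : QQbar) ^ p = 1 := by
              rw [← Units.val_pow_eq_pow_val, (mem_rootsOfUnity _ _).1 u.2, Units.val_one]
            have h2 : ‖emb q (g (u.1 : QQbar))‖ ^ p = 1 := by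
              rw [← norm_pow, ← map_pow, ← map_pow, h1, map_one, map_one, norm_one]
            exact (pow_eq_one_iff_of_nonneg (norm_nonneg _) hp.ne_zero).1 h2,
          mem_fixSub_qmul.2 (by
            obtain ⟨i, -, hi⟩ := hζ.eq_pow_of_pow_eq_one (ξ := (u.1 : QQbar)) (by
              rw [← Units.val_pow_eq_pow_val, (mem_rootsOfUnity _ _).1 u.2, Units.val_one])
            show (u.1 : QQbar) ∈ fixField H
            rw [← hi]
            exact pow_mem hζk i)⟩, by
          refine Subtype.ext (Additive.toMul.injective ?_)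
          rw [nsmulAddMonoidHom_apply, AddSubgroup.coe_nsmul, toMul_nsmul]
          exact u.2⟩
        left_inv := fun x => rfl
        right_inv := fun u => rfl }
  have hq : Nat.card (↥(sUnit T ⊓ fixSub (A := QMul) H) ⧸
      (nsmulAddMonoidHom p : _ →+ ↥(sUnit T ⊓ fixSub (A := QMul) H)).range)
      = p ^ (finrank ℤ ↥(sUnit T ⊓ fixSub (A := QMul) H) + 1) := by
    rw [pow_succ, ← AddSubgroup.index, Ext.index_nsmul_range, hμ]
  rw [hq, ← pow_mul, ← hrank, mul_comm 2]

end FLTAgent.Global
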