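import Fermat.Agent.Global.Adele

/-!
Shared definitions: S-units, S-ideles, and the two Herbrand indices of an endomorphism pair.
-/

set_option autoImplicit false

noncomputable section

namespace FLTAgent.Global

/-- Ideles that are units outside the finite set `T`. -/
def sIdele (T : Finset Nat.Primes) : AddSubgroup Idele where
  carrier := {x | ∀ q ∉ T, comp q x ∈ semiUnit q}
  zero_mem' := fun q _ => by simp
  add_mem' := fun hx hy q hq => by simpa using (semiUnit q).add_mem (hx q hq) (hy q hq)
  neg_mem' := fun hx q hq => by simpa using (semiUnit q).neg_mem (hx q hq)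

/-- The `T`-units of `Q̄`. -/
def sUnit (T : Finset Nat.Primes) : AddSubgroup QMul := (sIdele T).comap principal

/-- The places over `q` of the fixed field of `H`. -/
abbrev Places (q : Nat.Primes) (H : Subgroup GQ) :=
  DoubleCoset.Quotient (dec q : Set GQ) (H : Set GQ)

section herbrand

variable {A : Type*} [AddCommGroup A]

/-- `ker f / im g`. -/
abbrev TateQuot (f g : A →+ A) := ↥f.ker ⧸ (g.range.addSubgroupOf f.ker)

/-- The Herbrand quotient of `(f, g)` is `num/den`, both indices being finite. -/
def HasHerbrand (f g : A →+ A) (num den : ℕ) : Prop :=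
  Finite (TateQuot f g) ∧ Finite (TateQuot g f) ∧
    ∃ k : ℚ, k = (num : ℚ) / den ∧ k = (Nat.card (TateQuot f g) : ℚ) / Nat.card (TateQuot g f)

/-- `σ - 1`. -/
def sigmaSub (σ : A →+ A) : A →+ A := σ - AddMonoidHom.id A

/-- `1 + σ + ⋯ + σ^(p-1)`. -/
def sigmaNorm (σ : A →+ A) (p : ℕ) : A →+ A where
  toFun a := ∑ i ∈ Finset.range p, σ^[i] a
  map_zero' := Finset.sum_eq_zero fun i _ => iterate_map_zero σ i
  map_add' a b := by
    rw [← Finset.sum_add_distrib]
    exact Finset.sum_congr rfl fun i _ => iterate_map_add σ i a b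

end herbrand

end FLTAgent.Global
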